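import Fermat.Agent.X015.Points

/-!
A rational 3-isogeny kernel and a rational 5-isogeny kernel cannot coexist on a curve which is
semistable at 5: the algebra.
-/

set_option autoImplicit false

namespace Fermat.Agent.X015

/-- the conic-bundle part -/
lemma r_cases {r e Z : ℚ} (he : e ^ 2 = (r ^ 2 + 4) * Z)
    (hF : 2 * r * (3 * Z + 1) + 2 * e * (Z + 3) + 3 * (Z - 1) ^ 2 = 0) :
    r = -3 / 2 ∨ r = 63 / 8 ∨ r = 1 ∨ r = 11 ∨ r = -29 := by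
  have h3 : 3 * Z + 1 ≠ 0 := by
    intro h3
    have hZ : Z = -1 / 3 := by linarith
    subst hZ
    have : e = -1 := by linarith
    subst this
    nlinarith [sq_nonneg r]
  have key := points (X := 9 * Z)
    (Y := 9 * ((Z - 1) * (2 * (Z - 1) * e + 3 * Z * (Z + 3))) / (3 * Z + 1)) (by
      rw [div_pow, div_eq_iff (pow_ne_zero 2 h3)]
      have h1 : -(4 * (Z - 1) ^ 3 * e ^ 2) - 12 * Z * (Z + 3) * (Z - 1) ^ 2 * e
          - 9 * Z * (Z - 1) ^ 4 - 16 * Z * (3 * Z + 1) ^ 2 = 0 := by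
        linear_combination 4 * (3 * Z + 1) ^ 2 * he
          - Z * (2 * e * (Z + 3) + 3 * (Z - 1) ^ 2 - 2 * r * (3 * Z + 1)) * hF
      linear_combination -81 * (Z - 1) * h1)
  rcases key with k | k | k | k | k
  · left
    have hZ : Z = 0 := by linarith
    subst hZ
    have : e = 0 := by
      have : e ^ 2 = 0 := by rw [he]; ring
      exact pow_eq_zero_iff two_ne_zero |>.mp this
    subst this
    linarith
  · exfalso
    have hZ : Z = 1 := by linarith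
    subst hZ
    have : e = -r := by linarith
    subst this
    nlinarith
  · right; left
    have hZ : Z = 25 / 9 := by linarith
    subst hZ
    have h1 : 63 * r + 39 * e + 32 = 0 := by linarith
    have h2 : (8 * r - 63) ^ 2 = 0 := by
      linear_combination ((-9 * (63 * r + 32 - 39 * e)) / 36) * h1 - (9 * 39 ^ 2 / 36) * he
    have := pow_eq_zero_iff two_ne_zero |>.mp h2
    linarith
  · have hZ : Z = 5 / 9 := by linarith
    subst hZ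
    have h1 : 9 * r + 12 * e + 1 = 0 := by linarith
    have h2 : (r - 11) * (r + 29) = 0 := by
      linear_combination (9 * r + 1 - 12 * e) * h1 + 144 * he
    rcases mul_eq_zero.mp h2 with h3 | h3
    · right; right; right; left; linarith
    · right; right; right; right; linarith
  · have hZ : Z = 5 := by linarith
    subst hZ
    have h1 : 2 * r + e + 3 = 0 := by linarith
    have h2 : (r - 1) * (r - 11) = 0 := by
      linear_combination -(2 * r + 3 - e) * h1 - he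
    rcases mul_eq_zero.mp h2 with h3 | h3
    · right; right; left; linarith
    · right; right; right; left; linarith

lemma exists_r {c₄ c₆ ξ s q : ℚ} (h3 : ξ ^ 4 - 6 * c₄ * ξ ^ 2 - 8 * c₆ * ξ - 3 * c₄ ^ 2 = 0)
    (hB : -8 * c₆ = s ^ 3 - 6 * q * s + 6 * c₄ * s)
    (hA : 9 * c₄ ^ 2 - 6 * c₄ * (s ^ 2 - q) + (5 * q ^ 2 + 5 * s ^ 2 * q - s ^ 4) = 0)
    (hd : s ^ 2 - 4 * q ≠ 0) :
    ∃ D r σ : ℚ, D ≠ 0 ∧ c₄ = D * (r ^ 2 - 12 * r + 16) ∧ σ ^ 2 = D * (r ^ 2 + 4) ∧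
      c₆ = - σ * D * (r ^ 2 - 18 * r + 76) ∧
      (r = -3 / 2 ∨ r = 63 / 8 ∨ r = 1 ∨ r = 11 ∨ r = -29) := by
  obtain ⟨ρ, hρ⟩ : ∃ ρ, ρ = s ^ 2 - q - 3 * c₄ := ⟨_, rfl⟩
  obtain ⟨d, hdd⟩ : ∃ d, d = s ^ 2 - 4 * q := ⟨_, rfl⟩
  have hd0 : d ≠ 0 := by rw [hdd]; exact hd
  have hρ2 : ρ ^ 2 = (2 * s ^ 2 + q) * d := by
    rw [hρ, hdd]; linear_combination hA
  have hD0 : d / 144 ≠ 0 := by positivity
  have h4 : c₄ = d / 144 * ((4 * ρ / d) ^ 2 - 12 * (4 * ρ / d) + 16) := by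
    have : d / 144 * ((4 * ρ / d) ^ 2 - 12 * (4 * ρ / d) + 16) =
      (ρ ^ 2 / d - 3 * ρ + d) / 9 := by field_simp; ring
    rw [this, hρ2, mul_div_cancel_right₀ _ hd0, hρ, hdd]; ring
  have hσ : (s / 2) ^ 2 = d / 144 * ((4 * ρ / d) ^ 2 + 4) := by
    have : d / 144 * ((4 * ρ / d) ^ 2 + 4) = (4 * (ρ ^ 2 / d) + d) / 36 := by
      field_simp; norm_num
    rw [this, hρ2, mul_div_cancel_right₀ _ hd0, hdd]; ring
  have h6 : c₆ = - (s / 2) * (d / 144) * ((4 * ρ / d) ^ 2 - 18 * (4 * ρ / d) + 76) := by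
    have : - (s / 2) * (d / 144) * ((4 * ρ / d) ^ 2 - 18 * (4 * ρ / d) + 76) =
      - s * (4 * (ρ ^ 2 / d) - 18 * ρ + 19 * d) / 72 := by field_simp; ring
    rw [this, hρ2, mul_div_cancel_right₀ _ hd0, hρ, hdd]
    linear_combination (-1 / 8) * hB
  refine ⟨d / 144, 4 * ρ / d, s / 2, hD0, h4, hσ, h6, ?_⟩
  generalize d / 144 = D at *
  generalize 4 * ρ / d = r at *
  generalize s / 2 = σ at *
  have hu2 : (ξ - σ) ^ 2 = 36 * D * ((ξ - σ) ^ 2 / (36 * D)) := by field_simp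
  have hσu : σ * (ξ - σ) = 6 * D * (σ * (ξ - σ) / (6 * D)) := by field_simp
  have he : (σ * (ξ - σ) / (6 * D)) ^ 2 = (r ^ 2 + 4) * ((ξ - σ) ^ 2 / (36 * D)) := by
    rw [div_pow, mul_pow, hσ]; field_simp; ring
  generalize (ξ - σ) ^ 2 / (36 * D) = Z at *
  generalize σ * (ξ - σ) / (6 * D) = e at *
  refine r_cases he ?_
  have hξ2 : ξ ^ 2 = D * (r ^ 2 + 4 + 12 * e + 36 * Z) := by
    linear_combination hu2 + 2 * hσu + hσ
  have hσξ : σ * ξ = D * (r ^ 2 + 4 + 6 * e) := by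
    linear_combination hσu + hσ
  have h7 : D ^ 2 * (432 * (2 * r * (3 * Z + 1) + 2 * e * (Z + 3) + 3 * (Z - 1) ^ 2)) = 0 := by
    have e1 : ξ ^ 4 - 6 * c₄ * ξ ^ 2 - 8 * c₆ * ξ - 3 * c₄ ^ 2 =
      (D * (r ^ 2 + 4 + 12 * e + 36 * Z)) ^ 2 - 6 * c₄ * (D * (r ^ 2 + 4 + 12 * e + 36 * Z))
      + 8 * D * (r ^ 2 - 18 * r + 76) * (D * (r ^ 2 + 4 + 6 * e)) - 3 * c₄ ^ 2 := by
      rw [← hξ2, ← hσξ, h6]; ring
    rw [e1, h4] at h3
    linear_combination h3 - 144 * D ^ 2 * he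
  rcases mul_eq_zero.mp h7 with h8 | h8
  · exact absurd (pow_eq_zero_iff two_ne_zero |>.mp h8) hD0
  · linarith

lemma int_finish {c₄ Δ a b : ℤ} (hΔ : (5 : ℤ) ∣ Δ → ¬ (5 : ℤ) ∣ c₄)
    (h : a * c₄ ^ 3 = 5 * b * Δ) (ha : IsCoprime (5 : ℤ) a) (hb : ¬ (25 : ℤ) ∣ b) : False := by
  have h5 : Prime (5 : ℤ) := by
    rw [show (5 : ℤ) = ((5 : ℕ) : ℤ) by norm_num]; exact Nat.prime_iff_prime_int.mp (by norm_num)
  have h1 : (5 : ℤ) ∣ c₄ := by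
    have h2 : (5 : ℤ) ∣ a * c₄ ^ 3 := ⟨b * Δ, by rw [h]; ring⟩
    exact h5.dvd_of_dvd_pow (ha.dvd_of_dvd_mul_left h2)
  have h2 : ¬ (5 : ℤ) ∣ Δ := fun h3 => hΔ h3 h1
  obtain ⟨c, rfl⟩ := h1
  have h3 : 25 * (a * c ^ 3) = b * Δ := by linarith
  have h4 : IsCoprime (25 : ℤ) Δ := by
    have := ((h5.coprime_iff_not_dvd).mpr h2).pow_left (m := 2)
    norm_num at this
    exact this
  exact hb (h4.dvd_of_dvd_mul_right ⟨_, h3.symm⟩)

theorem algebra_main {c₄ c₆ Δ : ℤ} (hrel : 1728 * Δ = c₄ ^ 3 - c₆ ^ 2) (hΔ0 : Δ ≠ 0)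
    (hss : (5 : ℤ) ∣ Δ → ¬ (5 : ℤ) ∣ c₄) {ξ s q : ℚ}
    (h3 : ξ ^ 4 - 6 * c₄ * ξ ^ 2 - 8 * c₆ * ξ - 3 * c₄ ^ 2 = 0)
    (hB : -8 * c₆ = s ^ 3 - 6 * q * s + 6 * c₄ * s)
    (hA : 9 * c₄ ^ 2 - 6 * c₄ * (s ^ 2 - q) + (5 * q ^ 2 + 5 * s ^ 2 * q - s ^ 4) = 0)
    (hd : s ^ 2 - 4 * q ≠ 0) : False := by
  obtain ⟨D, r, σ, hD, hc4, hσ, hc6, hr⟩ := exists_r h3 hB hA hd
  have hΔ : (Δ : ℚ) = D ^ 3 * (r - 11) := by
    have h1 : (1728 * Δ : ℚ) = c₄ ^ 3 - c₆ ^ 2 := by exact_mod_cast hrel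
    have h2 : ((c₆ : ℚ)) ^ 2 = D ^ 3 * (r ^ 2 + 4) * (r ^ 2 - 18 * r + 76) ^ 2 := by
      rw [hc6]
      linear_combination D ^ 2 * (r ^ 2 - 18 * r + 76) ^ 2 * hσ
    rw [hc4, h2] at h1
    linear_combination (1 / 1728) * h1
  rcases hr with rfl | rfl | rfl | rfl | rfl
  · refine int_finish (a := 32) (b := -24389) hss ?_ (by norm_num [Int.isCoprime_iff_gcd_eq_one])
      (by norm_num)
    have : ((32 * c₄ ^ 3 : ℤ) : ℚ) = ((5 * (-24389) * Δ : ℤ) : ℚ) := by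
      push_cast; rw [hc4, hΔ]; ring
    exact_mod_cast this
  · refine int_finish (a := 32768) (b := 9393931) hss ?_
      (by norm_num [Int.isCoprime_iff_gcd_eq_one]) (by norm_num)
    have : ((32768 * c₄ ^ 3 : ℤ) : ℚ) = ((5 * 9393931 * Δ : ℤ) : ℚ) := by
      push_cast; rw [hc4, hΔ]; ring
    exact_mod_cast this
  · refine int_finish (a := 2) (b := -5) hss ?_ (by norm_num [Int.isCoprime_iff_gcd_eq_one])
      (by norm_num)
    have : ((2 * c₄ ^ 3 : ℤ) : ℚ) = ((5 * (-5) * Δ : ℤ) : ℚ) := by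
      push_cast; rw [hc4, hΔ]; ring
    exact_mod_cast this
  · apply hΔ0
    have : (Δ : ℚ) = 0 := by rw [hΔ]; ring
    exact_mod_cast this
  · refine int_finish (a := 8) (b := -69987605) hss ?_
      (by norm_num [Int.isCoprime_iff_gcd_eq_one]) (by norm_num)
    have : ((8 * c₄ ^ 3 : ℤ) : ℚ) = ((5 * (-69987605) * Δ : ℤ) : ℚ) := by
      push_cast; rw [hc4, hΔ]; ring
    exact_mod_cast this

end Fermat.Agent.X015
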