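import Fermat.Agent.X015.Count
import Fermat.Prelude.Def_FLTPrelim_GaloisRep

/-!
From reducibility of the mod 3 / mod 5 representation to rational points.
-/

set_option autoImplicit false

open WeierstrassCurve WeierstrassCurve.Affine WeierstrassCurve.Affine.Point

namespace Fermat.Agent.X015

local notation "QQ" => AlgebraicClosure ℚ

lemma isAlgClosure_QQ : IsAlgClosure ℚ QQ := by
  have h2 : @IsAlgClosure ℚ QQ _ _ (AlgebraicClosure.instAlgebra (k := ℚ) (R := ℚ)) _ :=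
    inferInstance
  convert h2
  exact Subsingleton.elim _ _

lemma isGalois_QQ : IsGalois ℚ QQ :=
  haveI := isAlgClosure_QQ
  IsAlgClosure.isGalois ℚ QQ

variable (E : WeierstrassCurve ℚ)

lemma mem_torsion_iff {n : ℕ} (P : (E.toAffine⁄QQ).Point) :
    P ∈ Submodule.torsionBy ℤ (E.toAffine⁄QQ).Point n ↔ (n : ℤ) • P = 0 :=
  Submodule.mem_torsionBy_iff _ _

lemma xi_smul (σ : QQ ≃ₐ[ℚ] QQ) {P : (E.toAffine⁄QQ).Point} (hP : P ≠ 0) :
    xi (E.toAffine⁄QQ) (σ • P) = σ (xi (E.toAffine⁄QQ) P) := by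
  obtain ⟨x, y, h, rfl⟩ := exists_some _ hP
  rw [algEquiv_smul_def, map_some, xi_some, xi_some]
  have hb : (E.toAffine⁄QQ).b₂ = algebraMap ℚ QQ E.b₂ :=
    WeierstrassCurve.map_b₂ E (algebraMap ℚ QQ)
  rw [hb, map_add, map_mul, AlgEquiv.commutes, map_ofNat σ 12]
  rfl

lemma smul_ne_zero' (σ : QQ ≃ₐ[ℚ] QQ) {P : (E.toAffine⁄QQ).Point} (hP : P ≠ 0) : σ • P ≠ 0 := by
  rw [algEquiv_smul_def]
  intro h
  apply hP
  apply Point.map_injective σ.toAlgHom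
  rw [h, Point.map_zero]

lemma exists_rat {x : QQ} (h : ∀ σ : QQ ≃ₐ[ℚ] QQ, σ x = x) : ∃ r : ℚ, algebraMap ℚ QQ r = x :=
  haveI := isGalois_QQ
  (InfiniteGalois.mem_range_algebraMap_iff_fixed x).mpr h

lemma natCast_smul_three (P : (E.toAffine⁄QQ).Point) : ((3 : ℕ) : ℤ) • P = P + P + P := by
  rw [show ((3 : ℕ) : ℤ) = 1 + 1 + 1 by norm_num, add_zsmul, add_zsmul, one_zsmul]

lemma natCast_smul_five (P : (E.toAffine⁄QQ).Point) :
    ((5 : ℕ) : ℤ) • P = (P + P) + (P + P) + P := by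
  rw [show ((5 : ℕ) : ℤ) = 1 + 1 + (1 + 1) + 1 by norm_num]
  simp only [add_zsmul, one_zsmul]

lemma two_ne : (2 : QQ) ≠ 0 := two_ne_zero
lemma three_ne : (3 : QQ) ≠ 0 := three_ne_zero
lemma five_ne : (5 : QQ) ≠ 0 := by norm_num

lemma Δ_ne (hΔ : E.Δ ≠ 0) : (E.toAffine⁄QQ).Δ ≠ 0 := by
  have : (E.toAffine⁄QQ).Δ = algebraMap ℚ QQ E.Δ := WeierstrassCurve.map_Δ E (algebraMap ℚ QQ)
  rw [this]
  simpa using hΔ

instance : Fact (Nat.Prime 3) := ⟨by norm_num⟩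
instance : Fact (Nat.Prime 5) := ⟨by norm_num⟩

lemma zmod3_cases : ∀ c : ZMod 3, c = 0 ∨ c = 1 ∨ c = -1 := by decide
lemma zmod5_cases : ∀ c : ZMod 5, c = 0 ∨ c = 1 ∨ c = -1 ∨ c = 2 ∨ c = -2 := by decide

theorem three_reducible (hΔ : E.Δ ≠ 0)
    (h : ¬ GaloisRepIsIrreducible (K := QQ) ℚ E.toAffine 3) :
    ∃ ξ : ℚ, q3 E ξ = 0 := by
  have hΔ' := Δ_ne E hΔ
  have hnt : Nontrivial (Submodule.torsionBy ℤ (E.toAffine⁄QQ).Point (3 : ℕ)) := by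
    obtain ⟨P, hP, hP3⟩ := exists_three_torsion (E.toAffine⁄QQ) two_ne three_ne hΔ'
    have hmem : P ∈ Submodule.torsionBy ℤ (E.toAffine⁄QQ).Point (3 : ℕ) := by
      rw [mem_torsion_iff, natCast_smul_three]; exact hP3
    exact ⟨⟨⟨P, hmem⟩, 0, fun h0 => hP (congrArg Subtype.val h0)⟩⟩
  rw [GaloisRepIsIrreducible] at h
  push Not at h
  obtain ⟨N, hN, hbot, htop⟩ := h hnt
  obtain ⟨hfin, hcard⟩ := card_three (E.toAffine⁄QQ) two_ne three_ne hΔ'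
  have hset : {P : (E.toAffine⁄QQ).Point | P + P + P = 0} =
      (Submodule.torsionBy ℤ (E.toAffine⁄QQ).Point (3 : ℕ) : Set (E.toAffine⁄QQ).Point) := by
    ext P
    rw [SetLike.mem_coe, mem_torsion_iff, natCast_smul_three]; rfl
  rw [hset] at hfin hcard
  have : Finite (Submodule.torsionBy ℤ (E.toAffine⁄QQ).Point (3 : ℕ)) := hfin
  obtain ⟨v, hv, hv0, hgen⟩ := exists_generator (p := 3)
    (M := Submodule.torsionBy ℤ (E.toAffine⁄QQ).Point (3 : ℕ)) hcard N hbot htop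
  have hP0 : (v : (E.toAffine⁄QQ).Point) ≠ 0 := fun h0 => hv0 (Subtype.ext h0)
  have hfix : ∀ σ : QQ ≃ₐ[ℚ] QQ, σ (xi (E.toAffine⁄QQ) v.1) = xi (E.toAffine⁄QQ) v.1 := by
    intro σ
    rw [← xi_smul E σ hP0]
    obtain ⟨c, hc⟩ := hgen _ (hN σ v hv)
    have hc' : σ • (v : (E.toAffine⁄QQ).Point) = ((c • v :
      Submodule.torsionBy ℤ (E.toAffine⁄QQ).Point (3 : ℕ)) : (E.toAffine⁄QQ).Point) := by
      rw [← hc]; rfl
    rcases zmod3_cases c with rfl | rfl | rfl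
    · exfalso
      rw [zero_smul] at hc'
      exact smul_ne_zero' E σ hP0 hc'
    · rw [one_smul] at hc'
      rw [hc']
    · rw [neg_smul, one_smul] at hc'
      rw [hc']
      exact xi_neg _ _
  obtain ⟨r, hr⟩ := exists_rat hfix
  refine ⟨r, ?_⟩
  have h3 : v.1 + v.1 + v.1 = 0 := by
    have := v.2
    rwa [mem_torsion_iff, natCast_smul_three] at this
  have hq := (three_smul_eq_zero_iff (E.toAffine⁄QQ) two_ne three_ne hΔ' hP0).mp h3
  rw [← hr] at hq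
  have h4 : (E.toAffine⁄QQ).c₄ = algebraMap ℚ QQ E.c₄ := WeierstrassCurve.map_c₄ E (algebraMap ℚ QQ)
  have h6 : (E.toAffine⁄QQ).c₆ = algebraMap ℚ QQ E.c₆ := WeierstrassCurve.map_c₆ E (algebraMap ℚ QQ)
  have h7 : algebraMap ℚ QQ (q3 E r) = 0 := by
    rw [← hq, q3, q3, h4, h6]
    simp
  simpa using h7

theorem five_reducible (hΔ : E.Δ ≠ 0)
    (h : ¬ GaloisRepIsIrreducible (K := QQ) ℚ E.toAffine 5) :
    ∃ s q : ℚ, FiveRel E s q ∧ s ^ 2 - 4 * q ≠ 0 := by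
  have hΔ' := Δ_ne E hΔ
  have hnt : Nontrivial (Submodule.torsionBy ℤ (E.toAffine⁄QQ).Point (5 : ℕ)) := by
    obtain ⟨P, hP, hP3⟩ := exists_five_torsion (E.toAffine⁄QQ) two_ne three_ne five_ne hΔ'
    have hmem : P ∈ Submodule.torsionBy ℤ (E.toAffine⁄QQ).Point (5 : ℕ) := by
      rw [mem_torsion_iff, natCast_smul_five]; exact hP3
    exact ⟨⟨⟨P, hmem⟩, 0, fun h0 => hP (congrArg Subtype.val h0)⟩⟩
  rw [GaloisRepIsIrreducible] at h
  push Not at h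
  obtain ⟨N, hN, hbot, htop⟩ := h hnt
  obtain ⟨hfin, hcard⟩ := card_five (E.toAffine⁄QQ) two_ne three_ne five_ne
  have hset : {P : (E.toAffine⁄QQ).Point | (P + P) + (P + P) + P = 0} =
      (Submodule.torsionBy ℤ (E.toAffine⁄QQ).Point (5 : ℕ) : Set (E.toAffine⁄QQ).Point) := by
    ext P
    rw [SetLike.mem_coe, mem_torsion_iff, natCast_smul_five]; rfl
  rw [hset] at hfin hcard
  have : Finite (Submodule.torsionBy ℤ (E.toAffine⁄QQ).Point (5 : ℕ)) := hfin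
  obtain ⟨v, hv, hv0, hgen⟩ := exists_generator (p := 5)
    (M := Submodule.torsionBy ℤ (E.toAffine⁄QQ).Point (5 : ℕ)) hcard N hbot htop
  have hP0 : (v : (E.toAffine⁄QQ).Point) ≠ 0 := fun h0 => hv0 (Subtype.ext h0)
  have h5 : (v.1 + v.1) + (v.1 + v.1) + v.1 = 0 := by
    have := v.2
    rwa [mem_torsion_iff, natCast_smul_five] at this
  have h4v : (v.1 + v.1) + (v.1 + v.1) = -v.1 := eq_neg_of_add_eq_zero_left h5
  obtain ⟨h2P, hne, hrel, -, -⟩ := five_torsion_rel (E.toAffine⁄QQ) two_ne three_ne hP0 h5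
  obtain ⟨x₁, hx₁⟩ : ∃ x₁, x₁ = xi (E.toAffine⁄QQ) v.1 := ⟨_, rfl⟩
  obtain ⟨x₂, hx₂⟩ : ∃ x₂, x₂ = xi (E.toAffine⁄QQ) (v.1 + v.1) := ⟨_, rfl⟩
  have hfix : ∀ σ : QQ ≃ₐ[ℚ] QQ, (σ x₁ = x₁ ∧ σ x₂ = x₂) ∨ (σ x₁ = x₂ ∧ σ x₂ = x₁) := by
    intro σ
    have hadd : σ • (v.1 + v.1) = σ • v.1 + σ • v.1 := (Point.map σ.toAlgHom).map_add _ _
    rw [hx₁, hx₂, ← xi_smul E σ hP0, ← xi_smul E σ h2P, hadd]
    obtain ⟨c, hc⟩ := hgen _ (hN σ v hv)
    have hc' : σ • (v : (E.toAffine⁄QQ).Point) = ((c • v :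
      Submodule.torsionBy ℤ (E.toAffine⁄QQ).Point (5 : ℕ)) : (E.toAffine⁄QQ).Point) := by
      rw [← hc]; rfl
    rcases zmod5_cases c with rfl | rfl | rfl | rfl | rfl
    · exfalso
      rw [zero_smul] at hc'
      exact smul_ne_zero' E σ hP0 hc'
    · left
      rw [one_smul] at hc'
      rw [hc']
      exact ⟨rfl, rfl⟩
    · left
      rw [neg_smul, one_smul] at hc'
      have hc'' : σ • (v : (E.toAffine⁄QQ).Point) = -v.1 := hc'
      rw [hc'', ← neg_add, xi_neg, xi_neg]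
      exact ⟨rfl, rfl⟩
    · right
      rw [two_smul] at hc'
      have hc'' : σ • (v : (E.toAffine⁄QQ).Point) = v.1 + v.1 := hc'
      rw [hc'', h4v, xi_neg]
      exact ⟨rfl, rfl⟩
    · right
      rw [neg_smul, two_smul] at hc'
      have hc'' : σ • (v : (E.toAffine⁄QQ).Point) = -(v.1 + v.1) := hc'
      rw [hc'', ← neg_add, h4v, neg_neg, xi_neg]
      exact ⟨rfl, rfl⟩
  rw [← hx₁, ← hx₂] at hrel hne
  obtain ⟨s, hs⟩ := exists_rat (x := x₁ + x₂) (by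
    intro σ
    rcases hfix σ with ⟨h1, h2⟩ | ⟨h1, h2⟩ <;> rw [map_add, h1, h2]
    exact add_comm _ _)
  obtain ⟨q, hq⟩ := exists_rat (x := x₁ * x₂) (by
    intro σ
    rcases hfix σ with ⟨h1, h2⟩ | ⟨h1, h2⟩ <;> rw [map_mul, h1, h2]
    exact mul_comm _ _)
  have h4 : (E.toAffine⁄QQ).c₄ = algebraMap ℚ QQ E.c₄ := WeierstrassCurve.map_c₄ E (algebraMap ℚ QQ)
  have h6 : (E.toAffine⁄QQ).c₆ = algebraMap ℚ QQ E.c₆ := WeierstrassCurve.map_c₆ E (algebraMap ℚ QQ)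
  obtain ⟨hB, hA⟩ := hrel
  rw [← hs, ← hq, h4, h6] at hB
  rw [← hs, ← hq, h4] at hA
  have hinj := FaithfulSMul.algebraMap_injective ℚ QQ
  refine ⟨s, q, ⟨?_, ?_⟩, ?_⟩
  · apply hinj
    simpa using hB
  · apply hinj
    simpa using hA
  · intro h0
    have h1 : (x₁ - x₂) ^ 2 = 0 := by
      have h2 : algebraMap ℚ QQ (s ^ 2 - 4 * q) = 0 := by rw [h0, _root_.map_zero]
      rw [map_sub, map_mul, map_pow, hs, hq, map_ofNat] at h2
      linear_combination h2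
    exact hne (sub_eq_zero.mp (pow_eq_zero_iff two_ne_zero |>.mp h1))

end Fermat.Agent.X015
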