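import Fermat.Agent.X015.Xi

/-!
Counting 3- and 5-torsion points.
-/

set_option autoImplicit false

open WeierstrassCurve WeierstrassCurve.Affine WeierstrassCurve.Affine.Point

namespace Fermat.Agent.X015

section General

variable {F : Type*} [Field F] (V : WeierstrassCurve F)

open Polynomial in
/-- the polynomial `x(4P) = x(P)` in the normalised coordinate -/
noncomputable def f16 : F[X] :=
  let N : F[X] := X ^ 4 + C (6 * V.c₄) * X ^ 2 + C (16 * V.c₆) * X + C (9 * V.c₄ ^ 2)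
  let g : F[X] := X ^ 3 - C (3 * V.c₄) * X - C (2 * V.c₆)
  (N ^ 4 + C (6 * V.c₄) * N ^ 2 * (C 4 * g) ^ 2 + C (16 * V.c₆) * N * (C 4 * g) ^ 3
    + C (9 * V.c₄ ^ 2) * (C 4 * g) ^ 4)
  - C 4 * X * (C 4 * g) * (N ^ 3 - C (3 * V.c₄) * N * (C 4 * g) ^ 2 - C (2 * V.c₆) * (C 4 * g) ^ 3)

lemma f16_coeff : (f16 V).coeff 16 = -15 := by
  rw [f16]
  compute_degree!

lemma f16_natDegree : (f16 V).natDegree ≤ 16 := by
  rw [f16]
  compute_degree!

lemma f16_eval {ξ ξ' : F} (hg : gx V ξ ≠ 0) (h4 : (4 : F) ≠ 0) (h1 : 4 * gx V ξ * ξ' = Nx V ξ)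
    (h2 : 4 * gx V ξ' * ξ = Nx V ξ') : (f16 V).eval ξ = 0 := by
  have hb : 4 * gx V ξ ≠ 0 := mul_ne_zero h4 hg
  have hN : ξ ^ 4 + 6 * V.c₄ * ξ ^ 2 + 16 * V.c₆ * ξ + 9 * V.c₄ ^ 2 = 4 * gx V ξ * ξ' := by
    rw [h1, Nx]
  have hg' : ξ ^ 3 - 3 * V.c₄ * ξ - 2 * V.c₆ = gx V ξ := rfl
  simp only [f16, Polynomial.eval_sub, Polynomial.eval_add, Polynomial.eval_mul,
    Polynomial.eval_pow, Polynomial.eval_C, Polynomial.eval_X]
  rw [hN, hg']
  rw [gx, Nx] at h2
  linear_combination (-(4 * gx V ξ) ^ 4) * h2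

lemma card_le_of_roots {V : WeierstrassCurve F} (h12 : (12 : F) ≠ 0) (f : Polynomial F)
    (hf : f ≠ 0) (S : Set V.toAffine.Point)
    (hS : ∀ P ∈ S, P ≠ 0 → f.eval (xi V P) = 0) :
    S.Finite ∧ S.ncard ≤ 1 + 2 * f.natDegree := by
  classical
  have hA : ∀ t : F, ∃ A : Finset V.toAffine.Point, A.card ≤ 2 ∧
      ∀ P : V.toAffine.Point, P ≠ 0 → xi V P = t → P ∈ A := by
    intro t
    by_cases h : ∃ Q : V.toAffine.Point, Q ≠ 0 ∧ xi V Q = t
    · obtain ⟨Q, hQ, hQt⟩ := h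
      refine ⟨{Q, -Q}, Finset.card_le_two, ?_⟩
      intro P hP hPt
      rcases eq_or_eq_neg_of_xi V h12 hP hQ (by rw [hPt, hQt]) with h | h <;> simp [h]
    · refine ⟨∅, by simp, ?_⟩
      intro P hP hPt
      exact absurd ⟨P, hP, hPt⟩ h
  choose A hA1 hA2 using hA
  have hsub : S ⊆ ((insert 0 (f.roots.toFinset.biUnion A) : Finset V.toAffine.Point) :
      Set V.toAffine.Point) := by
    intro P hP
    rw [Finset.mem_coe, Finset.mem_insert]
    by_cases h0 : P = 0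
    · left; exact h0
    · right
      rw [Finset.mem_biUnion]
      refine ⟨xi V P, ?_, hA2 _ P h0 rfl⟩
      rw [Multiset.mem_toFinset, Polynomial.mem_roots hf]
      exact hS P hP h0
  refine ⟨(Finset.finite_toSet _).subset hsub, ?_⟩
  have h1 := Set.ncard_le_ncard hsub (Finset.finite_toSet _)
  rw [Set.ncard_coe_finset] at h1
  have h2 : (f.roots.toFinset.biUnion A).card ≤ f.roots.toFinset.card * 2 :=
    Finset.card_biUnion_le_card_mul _ _ _ (fun t _ => hA1 t)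
  have h3 : f.roots.toFinset.card ≤ f.natDegree :=
    (Multiset.toFinset_card_le _).trans (Polynomial.card_roots' f)
  have h4 := Finset.card_insert_le (0 : V.toAffine.Point) (f.roots.toFinset.biUnion A)
  omega

variable [DecidableEq F]

lemma card_three (h2 : (2 : F) ≠ 0) (h3 : (3 : F) ≠ 0) (hΔ : V.Δ ≠ 0) :
    {P : V.toAffine.Point | P + P + P = 0}.Finite ∧
    {P : V.toAffine.Point | P + P + P = 0}.ncard < 3 ^ 3 := by
  have h12 : (12 : F) ≠ 0 := by
    have : (12 : F) = 2 ^ 2 * 3 := by norm_num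
    rw [this]; exact mul_ne_zero (pow_ne_zero _ h2) h3
  obtain ⟨k1, k2⟩ := card_le_of_roots h12 (q3P V) (by
    intro h0
    have := q3P_natDegree V
    rw [h0] at this
    simp at this) {P : V.toAffine.Point | P + P + P = 0} (by
      intro P hP hP0
      rw [q3P_eval]
      exact (three_smul_eq_zero_iff V h2 h3 hΔ hP0).mp hP)
  rw [q3P_natDegree] at k2
  exact ⟨k1, by omega⟩

lemma card_five (h2 : (2 : F) ≠ 0) (h3 : (3 : F) ≠ 0) (h5 : (5 : F) ≠ 0) :
    {P : V.toAffine.Point | (P + P) + (P + P) + P = 0}.Finite ∧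
    {P : V.toAffine.Point | (P + P) + (P + P) + P = 0}.ncard < 5 ^ 3 := by
  have h12 : (12 : F) ≠ 0 := by
    have : (12 : F) = 2 ^ 2 * 3 := by norm_num
    rw [this]; exact mul_ne_zero (pow_ne_zero _ h2) h3
  have h432 : (432 : F) ≠ 0 := by
    have : (432 : F) = 2 ^ 4 * 3 ^ 3 := by norm_num
    rw [this]; exact mul_ne_zero (pow_ne_zero _ h2) (pow_ne_zero _ h3)
  have h4 : (4 : F) ≠ 0 := by
    have : (4 : F) = 2 ^ 2 := by norm_num
    rw [this]; exact pow_ne_zero _ h2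
  obtain ⟨k1, k2⟩ := card_le_of_roots h12 (f16 V) (by
    intro h0
    have := f16_coeff V
    rw [h0] at this
    simp at this
    have h15 : (15 : F) ≠ 0 := by
      have : (15 : F) = 3 * 5 := by norm_num
      rw [this]; exact mul_ne_zero h3 h5
    exact h15 this) {P : V.toAffine.Point | (P + P) + (P + P) + P = 0} (by
      intro P hP hP0
      obtain ⟨h2P, hne, -, e1, e2⟩ := five_torsion_rel V h2 h3 hP0 hP
      exact f16_eval V (fun h => h2P ((double_eq_zero_iff V h432 hP0).mpr h)) h4 e1 e2)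
  have := f16_natDegree V
  exact ⟨k1, by omega⟩

end General

lemma exists_generator {p : ℕ} [Fact p.Prime] {M : Type*} [AddCommGroup M] [Module (ZMod p) M]
    [Finite M] (hcard : Nat.card M < p ^ 3) (N : Submodule (ZMod p) M) (hb : N ≠ ⊥)
    (ht : N ≠ ⊤) : ∃ v ∈ N, v ≠ 0 ∧ ∀ w ∈ N, ∃ c : ZMod p, w = c • v := by
  have : Fintype M := Fintype.ofFinite M
  have h1 := Module.card_eq_pow_finrank (K := ZMod p) (V := M)
  rw [ZMod.card, ← Nat.card_eq_fintype_card] at h1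
  rw [h1] at hcard
  have h2 : Module.finrank (ZMod p) M < 3 :=
    (Nat.pow_lt_pow_iff_right (Fact.out (p := p.Prime)).one_lt).mp hcard
  have h3 : Module.finrank (ZMod p) N < Module.finrank (ZMod p) M := Submodule.finrank_lt ht
  have h4 : Module.finrank (ZMod p) N ≠ 0 := by
    intro h0
    exact hb (Submodule.finrank_eq_zero.mp h0)
  have h5 : Module.finrank (ZMod p) N = 1 := by omega
  obtain ⟨v, hv, hw⟩ := finrank_eq_one_iff'.mp h5
  refine ⟨v.1, v.2, fun h => hv (Subtype.ext h), ?_⟩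
  intro w hw'
  obtain ⟨c, hc⟩ := hw ⟨w, hw'⟩
  exact ⟨c, by rw [← Submodule.coe_smul, hc]⟩

end Fermat.Agent.X015
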