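import Fermat.Agent.X015.Descent

/-!
Rational points on `Y² = X (X - 9) (X - 25)`.
-/

set_option autoImplicit false

namespace Fermat.Agent.X015

lemma sq_ne_three_mod_four {k : ℤ} (a : ℤ) (h : k ^ 2 = 4 * a + 3) : False := by
  rcases Int.even_or_odd k with ⟨i, hi⟩ | ⟨i, hi⟩
  · subst hi
    have : 4 * (i ^ 2) = 4 * a + 3 := by rw [← h]; ring
    omega
  · subst hi
    have : 4 * (i ^ 2 + i) + 1 = 4 * a + 3 := by rw [← h]; ring
    omega

lemma split_gcd {a b w : ℤ} (ha : 0 < a) (hb : 0 < b) (h : a * b = w ^ 2) :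
    ∃ g s t : ℤ, 0 < g ∧ a = g * s ^ 2 ∧ b = g * t ^ 2 := by
  obtain ⟨g, a', b', hg, hcop, rfl, rfl⟩ := Int.exists_gcd_one' (m := a) (n := b)
    (Int.gcd_pos_of_ne_zero_left _ ha.ne')
  have hg' : (0 : ℤ) < g := by exact_mod_cast hg
  have hw : (g : ℤ) ^ 2 ∣ w ^ 2 := ⟨a' * b', by rw [← h]; ring⟩
  rw [Int.pow_dvd_pow_iff two_ne_zero] at hw
  obtain ⟨w', rfl⟩ := hw
  have h1 : a' * b' = w' ^ 2 := by
    have h2 : (g : ℤ) ^ 2 ≠ 0 := by positivity
    apply mul_left_cancel₀ h2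
    linear_combination h
  have ha' : 0 < a' := by
    by_contra hn; push Not at hn; nlinarith
  have hb' : 0 < b' := by
    by_contra hn; push Not at hn; nlinarith
  have hc : IsCoprime a' b' := Int.isCoprime_iff_gcd_eq_one.mpr hcop
  obtain ⟨s, hs⟩ := sq_of_coprime_pos hc ha' h1
  obtain ⟨t, ht⟩ := sq_of_coprime_pos hc.symm hb' (by rw [mul_comm]; exact h1)
  exact ⟨g, s, t, hg', by rw [← hs]; ring, by rw [← ht]; ring⟩

lemma eq_one_of_dvd_fifteen {g : ℤ} (hg : 0 < g) (h : g ∣ 15) (k : ℤ) (hk : g = 8 * k + 1) :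
    g = 1 := by
  have := Int.le_of_dvd (by norm_num) h
  have hk' : k = 0 ∨ k = 1 := by omega
  rcases hk' with rfl | rfl
  · rw [hk]; norm_num
  · exfalso; rw [hk] at h; revert h; norm_num

/-- the two quadratic forms with coprime arguments -/
lemma forms_gcd {p q g s t R : ℤ} (hR : Odd R) (hg : 0 < g)
    (h1 : 8 * p + R ^ 2 = g * s ^ 2) (h15 : g ∣ 15) (hq : q = g * t ^ 2) : q = t ^ 2 ∧
      8 * p + R ^ 2 = s ^ 2 := by
  obtain ⟨j, hj⟩ := odd_sq hR
  have hs : Odd s := by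
    rcases Int.even_or_odd s with ⟨i, hi⟩ | h
    · exfalso
      subst hi
      have : 2 * (2 * g * i ^ 2) = 8 * p + (8 * j + 1) := by rw [← hj, h1]; ring
      omega
    · exact h
  obtain ⟨i, hi⟩ := odd_sq hs
  have hg1 : g = 1 := by
    apply eq_one_of_dvd_fifteen hg h15 (p + j - g * i)
    rw [hi, hj] at h1
    linarith
  subst hg1
  exact ⟨by rw [hq]; ring, by rw [h1]; ring⟩

lemma no_quartic {α β w : ℤ} (hα : 0 < α) (hβ : 0 < β) (hcop : IsCoprime α β) (hαe : Even α)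
    (h : α * β * (4 * α + β) * (α + 4 * β) = w ^ 2) : False := by
  have hβo : Odd β := by
    rcases Int.even_or_odd β with h1 | h1
    · exfalso
      obtain ⟨u, v, huv⟩ := hcop
      obtain ⟨i, hi⟩ := hαe
      obtain ⟨j, hj⟩ := h1
      have : 2 * (u * i + v * j) = 1 := by rw [← huv, hi, hj]; ring
      omega
    · exact h1
  have hβ4 : IsCoprime β 4 := by
    have h5 : IsCoprime β 2 := by
      obtain ⟨i, hi⟩ := hβo
      exact ⟨1, -i, by rw [hi]; ring⟩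
    have := h5.pow_right (n := 2)
    norm_num at this
    exact this
  -- `β` is a square
  have hc1 : IsCoprime β (4 * α + β) := by
    have h1 : IsCoprime β (4 * α) := hβ4.mul_right hcop.symm
    have h2 := h1.add_mul_left_right 1
    rwa [mul_one] at h2
  have hc2 : IsCoprime β (α + 4 * β) := by
    have h2 := hcop.symm.add_mul_left_right 4
    rwa [mul_comm β 4] at h2
  have hβrest : IsCoprime β (α * (4 * α + β) * (α + 4 * β)) :=
    (hcop.symm.mul_right hc1).mul_right hc2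
  have hprod : β * (α * (4 * α + β) * (α + 4 * β)) = w ^ 2 := by rw [← h]; ring
  obtain ⟨R, hR⟩ := sq_of_coprime_pos hβrest hβ hprod
  obtain ⟨T, hT⟩ := sq_of_coprime_pos hβrest.symm (by positivity)
    (by rw [mul_comm]; exact hprod)
  have hRo : Odd R := by apply odd_of_odd_sq; rw [← hR]; exact hβo
  obtain ⟨g, s, t, hg, hgs, hgt⟩ := split_gcd (a := α) (b := (4 * α + β) * (α + 4 * β)) hα
    (by positivity) (w := T) (by rw [← hT]; ring)
  have hg4 : g ∣ 4 := by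
    have h1 : g ∣ 4 * β ^ 2 := by
      have : 4 * β ^ 2 = (4 * α + β) * (α + 4 * β) - α * (4 * α + 17 * β) := by ring
      rw [this, hgt]
      have hga : g ∣ α := ⟨s ^ 2, hgs⟩
      exact dvd_sub (dvd_mul_right _ _) (hga.mul_right _)
    have h2 : IsCoprime g (β ^ 2) := by
      have : IsCoprime g β := IsCoprime.of_isCoprime_of_dvd_left hcop ⟨s ^ 2, hgs⟩
      exact this.pow_right
    exact h2.dvd_of_dvd_mul_right h1
  have hgle := Int.le_of_dvd (by norm_num) hg4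
  have hcases : (∃ P K : ℤ, α = P ^ 2 ∧ (4 * α + β) * (α + 4 * β) = K ^ 2) ∨
      (∃ P K : ℤ, α = 2 * P ^ 2 ∧ (4 * α + β) * (α + 4 * β) = 2 * K ^ 2) := by
    have : g = 1 ∨ g = 2 ∨ g = 3 ∨ g = 4 := by omega
    rcases this with rfl | rfl | rfl | rfl
    · left; exact ⟨s, t, by rw [hgs]; ring, by rw [hgt]; ring⟩
    · right; exact ⟨s, t, hgs, hgt⟩
    · exfalso; revert hg4; norm_num
    · left; exact ⟨2 * s, 2 * t, by rw [hgs]; ring, by rw [hgt]; ring⟩
  rcases hcases with ⟨P, K, hP, hK⟩ | ⟨P, K, hP, hK⟩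
  · have hPe : Even P := by
      rw [hP] at hαe
      exact (Int.even_pow.mp hαe).1
    obtain ⟨P₁, hP₁⟩ := hPe
    have hP2 : P = 2 * P₁ := by rw [hP₁]; ring
    subst hP2
    have hP0 : P₁ ≠ 0 := by rintro rfl; rw [hP] at hα; simp at hα
    have hcopPR : IsCoprime P₁ R := by
      rw [hP, hR] at hcop
      have := (IsCoprime.pow_iff two_pos two_pos).mp hcop
      exact this.of_mul_left_right
    have hK' : (8 * (2 * P₁ ^ 2) + R ^ 2) * (P₁ ^ 2 + R ^ 2) * 4 = K ^ 2 := by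
      rw [← hK, hP, hR]; ring
    have hKe : (2 : ℤ) ∣ K := by
      have : (2 : ℤ) ∣ K ^ 2 := ⟨(8 * (2 * P₁ ^ 2) + R ^ 2) * (P₁ ^ 2 + R ^ 2) * 2, by
        rw [← hK']; ring⟩
      exact Int.prime_two.dvd_of_dvd_pow this
    obtain ⟨K', rfl⟩ := hKe
    have hR0 : R ≠ 0 := by rintro rfl; rw [hR] at hβ; simp at hβ
    have hRpos : 0 < R ^ 2 := by positivity
    obtain ⟨g', s', t', hg', h1', h2'⟩ := split_gcd (a := 8 * (2 * P₁ ^ 2) + R ^ 2)
      (b := P₁ ^ 2 + R ^ 2) (w := K') (by positivity) (by positivity) (by linarith)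
    have h15 : g' ∣ 15 := by
      obtain ⟨u, v, huv⟩ : IsCoprime (P₁ ^ 2) (R ^ 2) := hcopPR.pow
      refine ⟨u * (s' ^ 2 - t' ^ 2) + v * (16 * t' ^ 2 - s' ^ 2), ?_⟩
      linear_combination (-15) * huv + (u - v) * h1' + (16 * v - u) * h2'
    obtain ⟨e2, e1⟩ := forms_gcd hRo hg' h1' h15 h2'
    have := simultaneous _ R P₁ s' t' rfl (by linarith) (by linarith) hcopPR.symm hRo
    exact hP0 this
  · have hP0 : P ≠ 0 := by rintro rfl; rw [hP] at hα; simp at hα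
    have hcopPR : IsCoprime P R := by
      rw [hP, hR] at hcop
      exact (IsCoprime.pow_iff two_pos two_pos).mp hcop.of_mul_left_right
    have hR0 : R ≠ 0 := by rintro rfl; rw [hR] at hβ; simp at hβ
    have hRpos : 0 < R ^ 2 := by positivity
    have hPpos : 0 < P ^ 2 := by positivity
    have hK' : (8 * P ^ 2 + R ^ 2) * (P ^ 2 + 2 * R ^ 2) = K ^ 2 := by
      have : 2 * ((8 * P ^ 2 + R ^ 2) * (P ^ 2 + 2 * R ^ 2)) = 2 * K ^ 2 := by
        rw [← hK, hP, hR]; ring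
      linarith
    obtain ⟨g', s', t', hg', h1', h2'⟩ := split_gcd (a := 8 * P ^ 2 + R ^ 2)
      (b := P ^ 2 + 2 * R ^ 2) (w := K) (by positivity) (by positivity) hK'
    have h15 : g' ∣ 15 := by
      obtain ⟨u, v, huv⟩ : IsCoprime (P ^ 2) (R ^ 2) := hcopPR.pow
      refine ⟨u * (2 * s' ^ 2 - t' ^ 2) + v * (8 * t' ^ 2 - s' ^ 2), ?_⟩
      linear_combination (-15) * huv + (2 * u - v) * h1' + (8 * v - u) * h2'
    obtain ⟨e2, e1⟩ := forms_gcd hRo hg' h1' h15 h2'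
    obtain ⟨j, hj⟩ := odd_sq hRo
    rw [hj] at e2
    rcases Int.even_or_odd P with ⟨i, hi⟩ | hPo
    · rcases Int.even_or_odd t' with ⟨l, hl⟩ | hto
      · subst hi; subst hl
        have : 4 * i ^ 2 + 2 * (8 * j + 1) = 4 * l ^ 2 := by linarith
        omega
      · obtain ⟨l, hl⟩ := odd_sq hto
        subst hi
        have : 4 * i ^ 2 + 2 * (8 * j + 1) = 8 * l + 1 := by rw [← hl, ← e2]; ring
        omega
    · obtain ⟨i, hi⟩ := odd_sq hPo
      rw [hi] at e2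
      exact sq_ne_three_mod_four (k := t') (2 * i + 4 * j) (by linarith)

lemma no_odd_small {M e N : ℤ} (hM : Odd M) (he : Odd e) (hepos : 0 < e) (hcop : IsCoprime M e)
    (hlt : M ^ 2 < 9 * e ^ 2) (h : (9 * e ^ 2 - M ^ 2) * (25 * e ^ 2 - M ^ 2) = N ^ 2) : False := by
  obtain ⟨i, hi⟩ := hM
  obtain ⟨j, hj⟩ := he
  obtain ⟨α, hα⟩ : ∃ α, 3 * e + M = 2 * α := ⟨3 * j + i + 2, by rw [hi, hj]; ring⟩
  obtain ⟨β, hβ⟩ : ∃ β, 3 * e - M = 2 * β := ⟨3 * j - i + 1, by rw [hi, hj]; ring⟩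
  have habs : |M| < 3 * e := by
    apply abs_lt_of_sq_lt_sq _ (by positivity)
    nlinarith
  rw [abs_lt] at habs
  have hαpos : 0 < α := by linarith
  have hβpos : 0 < β := by linarith
  have hsum : α + β = 3 * e := by linarith
  have hdiff : α - β = M := by linarith
  have hN : 16 * (α * β * (4 * α + β) * (α + 4 * β)) = (3 * N) ^ 2 := by
    have e1 : M = α - β := hdiff.symm
    have e2 : 3 * e = α + β := hsum.symm
    have : (3 * N) ^ 2 = ((3 * e) ^ 2 - M ^ 2) * (25 * (3 * e) ^ 2 - 9 * M ^ 2) := by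
      linear_combination (-9) * h
    rw [this, e1, e2]; ring
  have h4 : (4 : ℤ) ∣ N := by
    have h5 : (4 : ℤ) ^ 2 ∣ (3 * N) ^ 2 := ⟨_, hN.symm⟩
    rw [Int.pow_dvd_pow_iff two_ne_zero] at h5
    omega
  obtain ⟨N₁, rfl⟩ := h4
  have hN₁ : α * β * (4 * α + β) * (α + 4 * β) = (3 * N₁) ^ 2 := by
    have : 16 * (α * β * (4 * α + β) * (α + 4 * β)) = 16 * (3 * N₁) ^ 2 := by rw [hN]; ring
    linarith
  obtain ⟨u, v, huv⟩ := hcop
  have hmem : (3 * u + v) * α + (v - 3 * u) * β = 3 := by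
    have : 3 * u * M + v * (3 * e) = 3 := by linear_combination 3 * huv
    rw [← hdiff, ← hsum] at this
    linarith
  have hpar : (Even α ∧ Odd β) ∨ (Odd α ∧ Even β) := by
    have hodd : Odd (α + β) := by rw [hsum]; exact ⟨3 * j + 1, by rw [hj]; ring⟩
    rcases Int.even_or_odd α with h1 | h1
    · left; exact ⟨h1, by rwa [Int.odd_add', iff_true_right h1] at hodd⟩
    · right
      refine ⟨h1, ?_⟩
      rwa [Int.odd_add, iff_true_left h1] at hodd
  by_cases h3 : (3 : ℤ) ∣ α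
  · obtain ⟨α₁, rfl⟩ := h3
    obtain ⟨β₁, rfl⟩ : (3 : ℤ) ∣ β := ⟨e - α₁, by linarith⟩
    have hcop1 : IsCoprime α₁ β₁ := ⟨3 * u + v, v - 3 * u, by linarith⟩
    have h31 : (3 : ℤ) ∣ N₁ := by
      have h5 : (3 : ℤ) ^ 2 ∣ N₁ ^ 2 :=
        ⟨α₁ * β₁ * (4 * α₁ + β₁) * (α₁ + 4 * β₁), by linarith⟩
      rwa [Int.pow_dvd_pow_iff two_ne_zero] at h5
    obtain ⟨N₂, rfl⟩ := h31
    have hN₂ : α₁ * β₁ * (4 * α₁ + β₁) * (α₁ + 4 * β₁) = N₂ ^ 2 := by linarith
    have hα₁ : 0 < α₁ := by linarith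
    have hβ₁ : 0 < β₁ := by linarith
    rcases hpar with ⟨h1, -⟩ | ⟨-, h1⟩
    · refine no_quartic hα₁ hβ₁ hcop1 ?_ hN₂
      rcases Int.even_mul.mp h1 with h2 | h2
      · exact absurd h2 (by decide)
      · exact h2
    · refine no_quartic hβ₁ hα₁ hcop1.symm ?_ (w := N₂) (by linarith)
      rcases Int.even_mul.mp h1 with h2 | h2
      · exact absurd h2 (by decide)
      · exact h2
  · have hcop3 : IsCoprime (3 : ℤ) α := (Prime.coprime_iff_not_dvd Int.prime_three).mpr h3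
    obtain ⟨x, y, hxy⟩ := hcop3
    have hcop1 : IsCoprime α β := by
      refine ⟨x * (3 * u + v) + y, x * (v - 3 * u), ?_⟩
      linear_combination x * hmem + hxy
    rcases hpar with ⟨h1, -⟩ | ⟨-, h1⟩
    · exact no_quartic hαpos hβpos hcop1 h1 hN₁
    · exact no_quartic hβpos hαpos hcop1.symm h1 (w := 3 * N₁) (by linarith)

/-- a rational number that is a quotient of odd integers -/
def OddRat (m : ℚ) : Prop := Odd m.num ∧ Odd (m.den : ℤ)

lemma oddRat_div {a b : ℤ} (ha : Odd a) (hb : Odd b) : OddRat ((a : ℚ) / b) := by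
  have hb0 : b ≠ 0 := by rintro rfl; simp at hb
  have h1 : ((a : ℚ) / b).num ∣ a := by
    rw [← Rat.divInt_eq_div]; exact Rat.num_dvd a hb0
  have h2 : (((a : ℚ) / b).den : ℤ) ∣ b := by
    rw [← Rat.divInt_eq_div]; exact Rat.den_dvd a b
  have key : ∀ x y : ℤ, Odd y → x ∣ y → Odd x := by
    rintro x y hy ⟨z, rfl⟩
    exact (Int.odd_mul.mp hy).1
  exact ⟨key _ _ ha h1, key _ _ hb h2⟩

lemma int_of_sq_eq {w : ℚ} {k : ℤ} (h : w ^ 2 = k) : ∃ n : ℤ, w = n ∧ n ^ 2 = k := by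
  have h1 : IsSquare ((k : ℤ) : ℚ) := ⟨w, by rw [← h]; ring⟩
  rw [Rat.isSquare_intCast_iff] at h1
  obtain ⟨n, hn⟩ := h1
  have h2 : w ^ 2 = (n : ℚ) ^ 2 := by rw [h, hn]; push_cast; ring
  rcases sq_eq_sq_iff_eq_or_eq_neg.mp h2 with h3 | h3
  · exact ⟨n, h3, by rw [hn]; ring⟩
  · exact ⟨-n, by rw [h3]; push_cast; ring, by rw [hn]; ring⟩

lemma no_oddRat_small {m w : ℚ} (hm : OddRat m) (hlt : m ^ 2 < 9)
    (h : w ^ 2 = (m ^ 2 - 9) * (m ^ 2 - 25)) : False := by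
  have hden : (m.den : ℚ) ≠ 0 := by exact_mod_cast m.den_ne_zero
  have hmeq : m = (m.num : ℚ) / (m.den : ℚ) := (Rat.num_div_den m).symm
  have hnum : (m.num : ℚ) = m * m.den := by
    rw [eq_comm, Rat.mul_den_eq_num]
  obtain ⟨N, hN, hN2⟩ := int_of_sq_eq (w := w * (m.den : ℚ) ^ 2)
    (k := (9 * (m.den : ℤ) ^ 2 - m.num ^ 2) * (25 * (m.den : ℤ) ^ 2 - m.num ^ 2)) (by
      push_cast
      rw [hnum, mul_pow, h]; ring)
  have hcop : IsCoprime m.num (m.den : ℤ) := by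
    rw [Int.isCoprime_iff_gcd_eq_one]
    exact m.reduced
  refine no_odd_small hm.1 hm.2 (by exact_mod_cast m.den_pos) hcop ?_ hN2.symm
  have : (m.num : ℚ) ^ 2 < 9 * (m.den : ℚ) ^ 2 := by
    rw [hnum, mul_pow]
    have : (0 : ℚ) < (m.den : ℚ) ^ 2 := by positivity
    nlinarith
  exact_mod_cast this

lemma no_not_oddRat_large {m w : ℚ} (hm : ¬ OddRat m) (hgt : 25 < m ^ 2)
    (h : w ^ 2 = (m ^ 2 - 9) * (m ^ 2 - 25)) : False := by
  have hdenpos : (0 : ℚ) < (m.den : ℚ) := by exact_mod_cast m.den_pos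
  have hnum : (m.num : ℚ) = m * m.den := by
    rw [eq_comm, Rat.mul_den_eq_num]
  set M : ℤ := m.num with hM
  set e : ℤ := (m.den : ℤ) with he
  have hecast : (m.den : ℚ) = (e : ℚ) := by rw [he]; norm_cast
  rw [hecast] at hdenpos hnum
  have hepos : 0 < e := by exact_mod_cast hdenpos
  have hcop : IsCoprime M e := by
    rw [Int.isCoprime_iff_gcd_eq_one]
    exact m.reduced
  obtain ⟨N, hN, hN2⟩ := int_of_sq_eq (w := w * (e : ℚ) ^ 2)
    (k := (M ^ 2 - 9 * e ^ 2) * (M ^ 2 - 25 * e ^ 2)) (by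
      push_cast
      rw [hnum, mul_pow, h]; ring)
  have hbig : 25 * e ^ 2 < M ^ 2 := by
    have : 25 * (e : ℚ) ^ 2 < (M : ℚ) ^ 2 := by
      rw [hnum, mul_pow]
      have : (0 : ℚ) < (e : ℚ) ^ 2 := by positivity
      nlinarith
    exact_mod_cast this
  have hesq : 0 < e ^ 2 := by positivity
  have hpar : (Odd M ∧ Even e) ∨ (Even M ∧ Odd e) := by
    rcases Int.even_or_odd M with h1 | h1 <;> rcases Int.even_or_odd e with h2 | h2
    · exfalso
      obtain ⟨u, v, huv⟩ := hcop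
      obtain ⟨i, hi⟩ := h1
      obtain ⟨j, hj⟩ := h2
      have : 2 * (u * i + v * j) = 1 := by rw [← huv, hi, hj]; ring
      omega
    · right; exact ⟨h1, h2⟩
    · left; exact ⟨h1, h2⟩
    · exact absurd ⟨h1, h2⟩ hm
  have hoddA : Odd (M ^ 2 - 9 * e ^ 2) := by
    rcases hpar with ⟨h1, k, hk⟩ | ⟨⟨k, hk⟩, h1⟩
    · obtain ⟨j, hj⟩ := odd_sq h1
      exact ⟨4 * j - 18 * k ^ 2, by rw [hj, hk]; ring⟩
    · obtain ⟨j, hj⟩ := odd_sq h1
      exact ⟨2 * k ^ 2 - 36 * j - 5, by rw [hj, hk]; ring⟩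
  have hcopAB : IsCoprime (M ^ 2 - 9 * e ^ 2) (M ^ 2 - 25 * e ^ 2) := by
    obtain ⟨u, v, huv⟩ : IsCoprime (M ^ 2) (e ^ 2) := hcop.pow
    have h16 : IsCoprime (M ^ 2 - 9 * e ^ 2) 16 := by
      have h5 : IsCoprime (M ^ 2 - 9 * e ^ 2) 2 := by
        obtain ⟨i, hi⟩ := hoddA
        exact ⟨1, -i, by rw [hi]; ring⟩
      have := h5.pow_right (n := 4)
      norm_num at this
      exact this
    obtain ⟨x, y, hxy⟩ := h16
    refine ⟨x + y * (25 * u + v), y * (-9 * u - v), ?_⟩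
    linear_combination hxy + 16 * y * huv
  obtain ⟨r, hr⟩ := sq_of_coprime_pos hcopAB (by linarith) hN2.symm
  obtain ⟨s, hs⟩ := sq_of_coprime_pos hcopAB.symm (by linarith) (by rw [mul_comm]; exact hN2.symm)
  have hMo : Odd M ∧ Even e := by
    rcases hpar with h1 | ⟨⟨k, hk⟩, h1⟩
    · exact h1
    · exfalso
      obtain ⟨j, hj⟩ := odd_sq h1
      refine sq_ne_three_mod_four (k := r) (k ^ 2 - 18 * j - 3) ?_
      rw [← hr, hj, hk]; ring
  have hro : Odd r := by apply odd_of_odd_sq; rw [← hr]; exact hoddA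
  have hso : Odd s := by
    apply odd_of_odd_sq
    rw [← hs]
    obtain ⟨h1, k, hk⟩ := hMo
    obtain ⟨j, hj⟩ := odd_sq h1
    exact ⟨4 * j - 50 * k ^ 2, by rw [hj, hk]; ring⟩
  have hr0 : (r : ℚ) ≠ 0 := by
    have : r ≠ 0 := by rintro rfl; simp at hro
    exact_mod_cast this
  have hrQ : (M : ℚ) ^ 2 - 9 * (e : ℚ) ^ 2 = (r : ℚ) ^ 2 := by exact_mod_cast hr
  have hsQ : (M : ℚ) ^ 2 - 25 * (e : ℚ) ^ 2 = (s : ℚ) ^ 2 := by exact_mod_cast hs
  have hodd : OddRat (((3 * s : ℤ) : ℚ) / (r : ℤ)) :=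
    oddRat_div (Odd.mul (by decide) hso) hro
  have hsq : (((3 * s : ℤ) : ℚ) / (r : ℤ)) ^ 2 = 9 - 144 * (e : ℚ) ^ 2 / (r : ℚ) ^ 2 := by
    push_cast
    field_simp
    linear_combination 9 * hrQ - 9 * hsQ
  refine no_oddRat_small hodd ?_ (w := 48 * e * M / (r : ℚ) ^ 2) ?_
  · rw [hsq]
    have : 0 < 144 * (e : ℚ) ^ 2 / (r : ℚ) ^ 2 := by positivity
    linarith
  · rw [hsq]
    field_simp
    linear_combination (144 * 16 * (e : ℚ) ^ 2) * hrQ

theorem class_one {m w : ℚ} (h : w ^ 2 = (m ^ 2 - 9) * (m ^ 2 - 25)) :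
    m ^ 2 = 0 ∨ m ^ 2 = 9 ∨ m ^ 2 = 25 := by
  have hinv : m ≠ 0 → (15 * w / m ^ 2) ^ 2 = ((15 / m) ^ 2 - 9) * ((15 / m) ^ 2 - 25) := by
    intro hm
    field_simp
    linear_combination 225 * h
  have hoddinv : m ≠ 0 → (OddRat m ↔ OddRat (15 / m)) := by
    intro hm
    have key : ∀ x : ℚ, x ≠ 0 → OddRat x → OddRat (15 / x) := by
      intro x hx hx2
      have e1 : 15 / x = ((15 * (x.den : ℤ) : ℤ) : ℚ) / ((x.num : ℤ) : ℚ) := by
        push_cast
        conv_lhs => rw [← Rat.num_div_den x]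
        have : (x.num : ℚ) ≠ 0 := by exact_mod_cast Rat.num_ne_zero.mpr hx
        have : (x.den : ℚ) ≠ 0 := by exact_mod_cast x.den_ne_zero
        field_simp
      rw [e1]
      exact oddRat_div (Odd.mul (by decide) hx2.2) hx2.1
    constructor
    · exact key m hm
    · intro h2
      have := key (15 / m) (by positivity) h2
      have e2 : 15 / (15 / m) = m := by field_simp
      rwa [e2] at this
  rcases lt_trichotomy (m ^ 2) 9 with h1 | h1 | h1
  · by_cases hm0 : m = 0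
    · left; rw [hm0]; norm_num
    · exfalso
      by_cases hodd : OddRat m
      · exact no_oddRat_small hodd h1 h
      · refine no_not_oddRat_large (m := 15 / m) ?_ ?_ (hinv hm0)
        · rwa [← hoddinv hm0]
        · rw [div_pow, lt_div_iff₀ (by positivity)]
          nlinarith
  · right; left; exact h1
  · rcases lt_trichotomy (m ^ 2) 25 with h2 | h2 | h2
    · exfalso; nlinarith [sq_nonneg w]
    · right; right; exact h2
    · exfalso
      have hm0 : m ≠ 0 := by rintro rfl; norm_num at h1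
      by_cases hodd : OddRat m
      · refine no_oddRat_small (m := 15 / m) ((hoddinv hm0).mp hodd) ?_ (hinv hm0)
        rw [div_pow, div_lt_iff₀ (by positivity)]
        nlinarith
      · exact no_not_oddRat_large hodd h2 h

theorem class_five {m n : ℚ} (h : n ^ 2 = (5 * m ^ 2 - 9) * (m ^ 2 - 5)) :
    m ^ 2 = 1 ∨ m ^ 2 = 9 := by
  by_cases h9 : m ^ 2 = 9
  · right; exact h9
  left
  have hne : m ^ 2 - 9 ≠ 0 := sub_ne_zero.mpr h9
  have e9 : (3 * (4 * m - n) / (m ^ 2 - 9)) ^ 2 - 9 =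
      36 * (m ^ 4 - 2 * m * n - 9) / (m ^ 2 - 9) ^ 2 := by
    rw [div_pow, eq_div_iff (pow_ne_zero 2 hne), sub_mul,
      div_mul_cancel₀ _ (pow_ne_zero 2 hne)]
    linear_combination 9 * h
  have e25 : (3 * (4 * m - n) / (m ^ 2 - 9)) ^ 2 - 25 =
      4 * (5 * m ^ 4 + 72 * m ^ 2 - 18 * m * n - 405) / (m ^ 2 - 9) ^ 2 := by
    rw [div_pow, eq_div_iff (pow_ne_zero 2 hne), sub_mul,
      div_mul_cancel₀ _ (pow_ne_zero 2 hne)]
    linear_combination 9 * h
  have key := class_one (m := 3 * (4 * m - n) / (m ^ 2 - 9))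
    (w := 12 * ((m ^ 2 + 9) * n - 2 * m * (7 * m ^ 2 - 27)) / (m ^ 2 - 9) ^ 2) (by
      rw [e9, e25, div_mul_div_comm, div_pow,
        div_eq_div_iff (pow_ne_zero 2 (pow_ne_zero 2 hne))
          (mul_ne_zero (pow_ne_zero 2 hne) (pow_ne_zero 2 hne))]
      linear_combination 144 * (m ^ 2 - 9) ^ 6 * h)
  have hfin : (m ^ 2 - 1) * (m ^ 2 - 9) = 0 := by
    rcases key with k | k | k
    · rw [div_pow, div_eq_zero_iff] at k
      rcases k with k | k
      · have k' : n = 4 * m := by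
          have := pow_eq_zero_iff (two_ne_zero) |>.mp k
          linarith
        subst k'
        have : 5 * ((m ^ 2 - 1) * (m ^ 2 - 9)) = 0 := by linear_combination -h
        linarith
      · exact absurd (pow_eq_zero_iff two_ne_zero |>.mp k) hne
    · have k1 : 36 * (m ^ 4 - 2 * m * n - 9) / (m ^ 2 - 9) ^ 2 = 0 := by
        rw [← e9, k]; norm_num
      rw [div_eq_zero_iff] at k1
      rcases k1 with k1 | k1
      · have k2 : (m ^ 2 - 1) ^ 2 * (m ^ 2 - 9) ^ 2 = 0 := by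
          linear_combination ((m ^ 4 - 9 + 2 * m * n) / 36) * k1 + 4 * m ^ 2 * h
        rw [← mul_pow] at k2
        exact pow_eq_zero_iff two_ne_zero |>.mp k2
      · exact absurd (pow_eq_zero_iff two_ne_zero |>.mp k1) hne
    · exfalso
      have k1 : 4 * (5 * m ^ 4 + 72 * m ^ 2 - 18 * m * n - 405) / (m ^ 2 - 9) ^ 2 = 0 := by
        rw [← e25, k]; norm_num
      rw [div_eq_zero_iff] at k1
      rcases k1 with k1 | k1
      · have k2 : 25 * (m ^ 2 - 9) ^ 4 = 0 := by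
          linear_combination ((5 * m ^ 4 + 72 * m ^ 2 - 405 + 18 * m * n) / 4) * k1
            + 324 * m ^ 2 * h
        exact hne (pow_eq_zero_iff four_ne_zero |>.mp (by linarith))
      · exact absurd (pow_eq_zero_iff two_ne_zero |>.mp k1) hne
  rcases mul_eq_zero.mp hfin with h1 | h1
  · linarith
  · exact absurd h1 hne

end Fermat.Agent.X015
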