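import Mathlib

/-!
Infinite descent for the simultaneous equations `x² + y² = □`, `x² + 16y² = □`.
-/

set_option autoImplicit false

namespace Fermat.Agent.X015

lemma odd_sq {m : ℤ} (hm : Odd m) : ∃ j : ℤ, m ^ 2 = 8 * j + 1 := by
  obtain ⟨i, hi⟩ := hm
  obtain ⟨k, hk⟩ : Even (i * (i + 1)) := Int.even_mul_succ_self i
  refine ⟨k, ?_⟩
  subst hi
  linear_combination 4 * hk

lemma odd_of_odd_sq {m : ℤ} (hm : Odd (m ^ 2)) : Odd m := by
  rcases Int.even_or_odd m with h | h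
  · exfalso
    obtain ⟨k, rfl⟩ := h
    obtain ⟨j, hj⟩ := hm
    have : 2 * (2 * k ^ 2) = 2 * j + 1 - 0 + 0 := by nlinarith
    omega
  · exact h

lemma sq_of_coprime_pos {a b c : ℤ} (h : IsCoprime a b) (ha : 0 < a) (heq : a * b = c ^ 2) :
    ∃ s : ℤ, a = s ^ 2 := by
  obtain ⟨s, hs | hs⟩ := Int.sq_of_isCoprime h heq
  · exact ⟨s, hs⟩
  · exfalso; nlinarith [sq_nonneg s]

/-- The descent step from `c² = (M² - 4e²)² + (Me)²`. -/
lemma step {M e c : ℤ} (hM : Odd M) (he : Even e) (he0 : e ≠ 0) (hMe : IsCoprime M e)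
    (h : (M ^ 2 - 4 * e ^ 2) ^ 2 + (M * e) ^ 2 = c ^ 2) :
    ∃ x y b c' : ℤ, Odd x ∧ y ≠ 0 ∧ IsCoprime x y ∧ x ^ 2 + y ^ 2 = c' ^ 2 ∧
      x ^ 2 + 16 * y ^ 2 = b ^ 2 ∧ y.natAbs < (M * e).natAbs := by
  have hM0 : M ≠ 0 := by rintro rfl; simp at hM
  have hodd : Odd (M ^ 2 - 4 * e ^ 2) := by
    obtain ⟨j, hj⟩ := odd_sq hM
    exact ⟨4 * j - 2 * e ^ 2, by linarith⟩
  have hc0 : c ≠ 0 := by
    rintro rfl
    have h1 : M * e ≠ 0 := mul_ne_zero hM0 he0
    have h2 : 0 < (M * e) ^ 2 := by positivity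
    nlinarith [sq_nonneg (M ^ 2 - 4 * e ^ 2)]
  have hcop4 : IsCoprime (4 : ℤ) M := by
    have h2 : IsCoprime (2 : ℤ) M := by
      obtain ⟨i, hi⟩ := hM
      exact ⟨-i, 1, by rw [hi]; ring⟩
    have := h2.pow_left (m := 2)
    norm_num at this
    exact this
  have hcop : IsCoprime (M ^ 2 - 4 * e ^ 2) (M * e) := by
    apply IsCoprime.mul_right
    · have h1 : IsCoprime (-(4 * e ^ 2)) M :=
        (IsCoprime.mul_left hcop4 (hMe.symm.pow_left)).neg_left
      have h2 := h1.add_mul_right_left M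
      have h3 : -(4 * e ^ 2) + M * M = M ^ 2 - 4 * e ^ 2 := by ring
      rwa [h3] at h2
    · have h1 : IsCoprime (M ^ 2) e := hMe.pow_left
      have h2 := h1.add_mul_right_left (-(4 * e))
      have h3 : M ^ 2 + -(4 * e) * e = M ^ 2 - 4 * e ^ 2 := by ring
      rwa [h3] at h2
  have hpt : PythagoreanTriple (M ^ 2 - 4 * e ^ 2) (M * e) |c| := by
    unfold PythagoreanTriple
    have := abs_mul_abs_self c
    rw [this]; linarith
  obtain ⟨f, g, hf1, hf2, -, hfg, -, -⟩ := hpt.coprime_classification'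
    (Int.isCoprime_iff_gcd_eq_one.mp hcop) (Int.odd_iff.mp hodd) (abs_pos.mpr hc0)
  obtain ⟨e₀, he₀⟩ := he
  have he₀' : e = 2 * e₀ := by rw [he₀]; ring
  have hprod : M * e₀ = f * g := by
    have : 2 * (M * e₀) = 2 * (f * g) := by rw [he₀'] at hf2; linarith
    linarith
  have hMdvd : M ∣ f * g := ⟨e₀, hprod.symm⟩
  obtain ⟨m₁, m₂, ⟨e₁, rfl⟩, ⟨e₂, rfl⟩, rfl⟩ := exists_dvd_and_dvd_of_dvd_mul hMdvd
  have he12 : e₀ = e₁ * e₂ := by
    apply mul_left_cancel₀ hM0
    rw [hprod]; ring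
  subst he12
  have hcop1 : IsCoprime m₁ e₂ := by
    rw [he₀'] at hMe
    exact hMe.of_mul_left_left.of_mul_right_right.of_mul_right_right
  have hcop2 : IsCoprime m₂ e₁ := by
    rw [he₀'] at hMe
    exact hMe.of_mul_left_right.of_mul_right_right.of_mul_right_left
  obtain ⟨hm₁, hm₂⟩ : Odd m₁ ∧ Odd m₂ := Int.odd_mul.mp hM
  have he₂0 : e₂ ≠ 0 := by rintro rfl; apply he0; rw [he₀']; ring
  have he₁0 : e₁ ≠ 0 := by rintro rfl; apply he0; rw [he₀']; ring
  have hmain : m₁ ^ 2 * (m₂ ^ 2 - e₁ ^ 2) = e₂ ^ 2 * (16 * e₁ ^ 2 - m₂ ^ 2) := by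
    rw [he₀'] at hf1
    linear_combination hf1
  have hdvd : e₂ ^ 2 ∣ m₂ ^ 2 - e₁ ^ 2 := by
    have h1 : e₂ ^ 2 ∣ m₁ ^ 2 * (m₂ ^ 2 - e₁ ^ 2) := ⟨_, hmain⟩
    exact (IsCoprime.pow hcop1.symm).dvd_of_dvd_mul_left h1
  obtain ⟨κ, hκ⟩ := hdvd
  have hκ2 : m₁ ^ 2 * κ = 16 * e₁ ^ 2 - m₂ ^ 2 := by
    have h2 : e₂ ^ 2 ≠ 0 := pow_ne_zero 2 he₂0
    apply mul_left_cancel₀ h2
    rw [← hmain, hκ]; ring
  have hκ15 : κ ∣ 15 := by
    obtain ⟨u, v, huv⟩ : IsCoprime (m₂ ^ 2) (e₁ ^ 2) := hcop2.pow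
    refine ⟨u * (16 * e₂ ^ 2 + m₁ ^ 2) + v * (e₂ ^ 2 + m₁ ^ 2), ?_⟩
    linear_combination (-15) * huv + (16 * u + v) * hκ - (u + v) * hκ2
  obtain ⟨j₁, hj₁⟩ := odd_sq hm₁
  obtain ⟨j₂, hj₂⟩ := odd_sq hm₂
  obtain ⟨t, ht⟩ : ∃ t : ℤ, κ = 8 * t - 1 := by
    refine ⟨2 * e₁ ^ 2 - j₂ - κ * j₁, ?_⟩
    rw [hj₁, hj₂] at hκ2
    linarith
  have hle : |κ| ≤ 15 := by
    have := Int.le_of_dvd (by norm_num) ((abs_dvd κ 15).mpr hκ15)
    exact this
  rw [abs_le] at hle
  have ht4 : t = -1 ∨ t = 0 ∨ t = 1 ∨ t = 2 := by omega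
  have hm₂0 : m₂ ≠ 0 := by rintro rfl; simp at hm₂
  have hm₁0 : m₁ ≠ 0 := by rintro rfl; simp at hm₁
  rcases ht4 with rfl | rfl | rfl | rfl
  · exfalso; rw [ht] at hκ15; revert hκ15; norm_num
  · exfalso
    have hκ' : κ = -1 := by rw [ht]; norm_num
    rw [hκ'] at hκ hκ2
    have h1 : 0 < e₂ ^ 2 := by positivity
    have h2 : 0 < m₁ ^ 2 := by positivity
    nlinarith [sq_nonneg e₁]
  · exfalso; rw [ht] at hκ15; revert hκ15; norm_num
  · have hκ' : κ = 15 := by rw [ht]; norm_num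
    rw [hκ'] at hκ hκ2
    refine ⟨m₁, e₂, m₂, e₁, hm₁, he₂0, hcop1, by linarith, by linarith, ?_⟩
    rw [he₀']
    have h3 : (m₁ * m₂ * (2 * (e₁ * e₂))).natAbs =
        (2 * (m₁.natAbs * m₂.natAbs * e₁.natAbs)) * e₂.natAbs := by
      simp only [Int.natAbs_mul]
      norm_num
      ring
    rw [h3]
    have h4 : 0 < m₁.natAbs * m₂.natAbs * e₁.natAbs := by
      have := Int.natAbs_pos.mpr hm₁0
      have := Int.natAbs_pos.mpr hm₂0
      have := Int.natAbs_pos.mpr he₁0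
      positivity
    have h5 : 0 < e₂.natAbs := Int.natAbs_pos.mpr he₂0
    nlinarith

/-- The simultaneous equations have only the trivial solution. -/
theorem simultaneous : ∀ (n : ℕ) (x y b c : ℤ), y.natAbs = n → x ^ 2 + y ^ 2 = c ^ 2 →
    x ^ 2 + 16 * y ^ 2 = b ^ 2 → IsCoprime x y → Odd x → y = 0 := by
  intro n
  induction n using Nat.strong_induction_on with
  | _ n ih =>
  intro x y b c hn h1 h2 hxy hx
  by_contra hy0
  have hx0 : x ≠ 0 := by rintro rfl; simp at hx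
  -- `y` is even
  have hy : Even y := by
    rcases Int.even_or_odd y with h | h
    · exact h
    · exfalso
      obtain ⟨i, hi⟩ := odd_sq hx
      obtain ⟨j, hj⟩ := odd_sq h
      have h3 := Int.sq_ne_two_mod_four c
      apply h3
      have : c * c = 8 * (i + j) + 2 := by nlinarith
      rw [this]; omega
  -- normalise the sign of `b`
  wlog hb : 0 < b generalizing b with H
  · refine H (-b) (by rw [h2]; ring) ?_
    have hb0 : b ≠ 0 := by
      rintro rfl
      have : 0 < x ^ 2 := by positivity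
      nlinarith [sq_nonneg y]
    omega
  have hbodd : Odd b := by
    apply odd_of_odd_sq
    rw [← h2]
    obtain ⟨i, hi⟩ := odd_sq hx
    exact ⟨4 * i + 8 * y ^ 2, by linarith⟩
  obtain ⟨α, hα⟩ : Even (b + x) := hbodd.add_odd hx
  have hβ : b - x = 2 * (b - α) := by linarith
  set β := b - α with hβdef
  have hαβ : α * β = (2 * y) ^ 2 := by
    have : 4 * (α * β) = 4 * (2 * y) ^ 2 := by
      have e1 : 2 * α = b + x := by linarith
      calc 4 * (α * β) = (2 * α) * (2 * β) := by ring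
        _ = (b + x) * (b - x) := by rw [e1, hβ]
        _ = 4 * (2 * y) ^ 2 := by linear_combination -h2
    linarith
  have hcop : IsCoprime α β := by
    have h3 : IsCoprime x (x ^ 2 + 16 * y ^ 2) := by
      have h4 : IsCoprime x (16 * y ^ 2) := by
        apply IsCoprime.mul_right
        · have h5 : IsCoprime x 2 := by
            obtain ⟨i, hi⟩ := hx
            exact ⟨1, -i, by rw [hi]; ring⟩
          have := h5.pow_right (n := 4)
          norm_num at this
          exact this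
        · exact hxy.pow_right
      have h6 := h4.add_mul_left_right x
      have h7 : 16 * y ^ 2 + x * x = x ^ 2 + 16 * y ^ 2 := by ring
      rwa [h7] at h6
    rw [h2] at h3
    obtain ⟨u, v, huv⟩ : IsCoprime x b := by
      have := h3
      rw [pow_two] at this
      exact this.of_mul_right_left
    refine ⟨u + v, v - u, ?_⟩
    have e1 : x = α - β := by linarith
    have e2 : b = α + β := by linarith
    rw [e1, e2] at huv
    linear_combination huv
  have hαβpos : 0 < α * β := by rw [hαβ]; positivity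
  have hsum : 0 < α + β := by have : α + β = b := by linarith
                              rw [this]; exact hb
  have hαpos : 0 < α := by
    by_contra hneg
    push Not at hneg
    rcases hneg.lt_or_eq with h | h
    · have : β < 0 := by nlinarith
      linarith
    · rw [h] at hαβpos; simp at hαβpos
  have hβpos : 0 < β := by
    by_contra hneg
    push Not at hneg
    nlinarith
  obtain ⟨s, hs⟩ := sq_of_coprime_pos hcop hαpos hαβ
  obtain ⟨r, hr⟩ := sq_of_coprime_pos hcop.symm hβpos (by rw [mul_comm]; exact hαβ)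
  have hsr : IsCoprime s r := by
    rw [hs, hr] at hcop
    exact (IsCoprime.pow_iff two_pos two_pos).mp hcop
  have hsr2 : (s * r) ^ 2 = (2 * y) ^ 2 := by rw [← hαβ, hs, hr]; ring
  have hx2 : x = s ^ 2 - r ^ 2 := by rw [← hs, ← hr]; linarith
  have hbsr : b = s ^ 2 + r ^ 2 := by rw [← hs, ← hr]; linarith
  -- find `M` odd and `E` even
  obtain ⟨M, E, hModd, hEeven, hMEcop, hME, hxME⟩ : ∃ M E : ℤ, Odd M ∧ Even E ∧ IsCoprime M E ∧
      (M * E) ^ 2 = (2 * y) ^ 2 ∧ x ^ 2 = (M ^ 2 - E ^ 2) ^ 2 := by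
    rcases Int.even_or_odd s with hse | hso
    · have hro : Odd r := by
        apply odd_of_odd_sq
        obtain ⟨k, hk⟩ := hse
        obtain ⟨l, hl⟩ := hbodd
        exact ⟨l - 2 * k ^ 2, by rw [hk] at hbsr; nlinarith⟩
      exact ⟨r, s, hro, hse, hsr.symm, by rw [mul_comm r s]; exact hsr2, by rw [hx2]; ring⟩
    · have hre : Even r := by
        rcases Int.even_or_odd r with h | h
        · exact h
        · exfalso
          obtain ⟨i, hi⟩ := odd_sq hso
          obtain ⟨j, hj⟩ := odd_sq h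
          obtain ⟨l, hl⟩ := hbodd
          rw [hi, hj, hl] at hbsr
          omega
      exact ⟨s, r, hso, hre, hsr, hsr2, by rw [hx2]⟩
  obtain ⟨e, he⟩ := hEeven
  have he' : E = 2 * e := by rw [he]; ring
  subst he'
  have hMe2 : (M * e) ^ 2 = y ^ 2 := by nlinarith
  have hMeabs : (M * e).natAbs = y.natAbs := by
    rw [Int.natAbs_eq_iff_sq_eq]; exact hMe2
  have heeven : Even e := by
    have h3 : Even (M * e) := by
      rw [← Int.natAbs_even, hMeabs, Int.natAbs_even]; exact hy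
    rcases Int.even_mul.mp h3 with h4 | h4
    · exact absurd h4 (Int.not_even_iff_odd.mpr hModd)
    · exact h4
  have he0 : e ≠ 0 := by
    rintro rfl
    apply hy0
    rw [mul_zero, Int.natAbs_zero] at hMeabs
    exact Int.natAbs_eq_zero.mp hMeabs.symm
  have hMecop : IsCoprime M e := hMEcop.of_mul_right_right
  have hfinal : (M ^ 2 - 4 * e ^ 2) ^ 2 + (M * e) ^ 2 = c ^ 2 := by
    rw [← h1, hMe2, hxME]; ring
  obtain ⟨x', y', b', c', hx', hy', hcop', h1', h2', hlt⟩ := step hModd heeven he0 hMecop hfinal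
  rw [hMeabs, hn] at hlt
  exact hy' (ih _ hlt x' y' b' c' rfl h1' h2' hcop' hx')

end Fermat.Agent.X015
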