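import Fermat.Agent.X015.Curve

/-!
All rational points on `Y² = X (X - 9) (X - 25)`.
-/

set_option autoImplicit false

namespace Fermat.Agent.X015

lemma parity_cases {M e : ℤ} (hcop : IsCoprime M e) :
    (∃ i j : ℤ, M ^ 2 = 8 * i + 1 ∧ e ^ 2 = 8 * j + 1) ∨
    (∃ i j : ℤ, M ^ 2 = 4 * i ∧ e ^ 2 = 8 * j + 1) ∨
    (∃ i j : ℤ, M ^ 2 = 8 * i + 1 ∧ e ^ 2 = 4 * j) := by
  rcases Int.even_or_odd M with ⟨i, hi⟩ | h1 <;> rcases Int.even_or_odd e with ⟨j, hj⟩ | h2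
  · exfalso
    obtain ⟨u, v, huv⟩ := hcop
    have : 2 * (u * i + v * j) = 1 := by rw [← huv, hi, hj]; ring
    omega
  · right; left
    obtain ⟨j, hj⟩ := odd_sq h2
    exact ⟨i ^ 2, j, by rw [hi]; ring, hj⟩
  · right; right
    obtain ⟨i, hi⟩ := odd_sq h1
    exact ⟨i, j ^ 2, hi, by rw [hj]; ring⟩
  · left
    obtain ⟨i, hi⟩ := odd_sq h1
    obtain ⟨j, hj⟩ := odd_sq h2
    exact ⟨i, j, hi, hj⟩

lemma half_sq {N a : ℤ} (h : N ^ 2 = 4 * a) : ∃ N' : ℤ, N' ^ 2 = a := by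
  have h2 : (2 : ℤ) ∣ N := Int.prime_two.dvd_of_dvd_pow ⟨2 * a, by rw [h]; ring⟩
  obtain ⟨N', rfl⟩ := h2
  exact ⟨N', by linarith⟩

lemma no_three {M e N : ℤ} (hcop : IsCoprime M e)
    (h : N ^ 2 = (M ^ 2 - 3 * e ^ 2) * (3 * M ^ 2 - 25 * e ^ 2)) : False := by
  rcases parity_cases hcop with ⟨i, j, hi, hj⟩ | ⟨i, j, hi, hj⟩ | ⟨i, j, hi, hj⟩ <;>
    rw [hi, hj] at h
  · obtain ⟨N', hN'⟩ := half_sq (N := N) (a := (4 * i - 12 * j - 1) * (12 * i - 100 * j - 11))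
      (by rw [h]; ring)
    refine sq_ne_three_mod_four (k := N')
      ((i - 3 * j) * (12 * i - 100 * j - 11) - (3 * i - 25 * j) + 2) ?_
    rw [hN']; ring
  · refine sq_ne_three_mod_four (k := N)
      ((i - 6 * j) * (12 * i - 200 * j - 25) - 3 * (3 * i - 50 * j) + 18) ?_
    rw [h]; ring
  · refine sq_ne_three_mod_four (k := N)
      ((2 * i - 3 * j) * (24 * i + 3 - 100 * j) + (6 * i - 25 * j)) ?_
    rw [h]; ring

lemma no_fifteen {M e N : ℤ} (hcop : IsCoprime M e)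
    (h : N ^ 2 = (5 * M ^ 2 - 3 * e ^ 2) * (3 * M ^ 2 - 5 * e ^ 2)) : False := by
  rcases parity_cases hcop with ⟨i, j, hi, hj⟩ | ⟨i, j, hi, hj⟩ | ⟨i, j, hi, hj⟩ <;>
    rw [hi, hj] at h
  · obtain ⟨N', hN'⟩ := half_sq (N := N) (a := (20 * i - 12 * j + 1) * (12 * i - 20 * j - 1))
      (by rw [h]; ring)
    refine sq_ne_three_mod_four (k := N')
      ((5 * i - 3 * j) * (12 * i - 20 * j - 1) + (3 * i - 5 * j) - 1) ?_
    rw [hN']; ring
  · refine sq_ne_three_mod_four (k := N)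
      ((5 * i - 6 * j) * (12 * i - 40 * j - 5) - 3 * (3 * i - 10 * j) + 3) ?_
    rw [h]; ring
  · refine sq_ne_three_mod_four (k := N)
      ((10 * i - 3 * j) * (24 * i + 3 - 20 * j) + 5 * (6 * i - 5 * j) + 3) ?_
    rw [h]; ring

lemma coprime_of_eq {d : ℕ} {M e K : ℤ} (hd : Squarefree d) (hcop : IsCoprime M e)
    (h : (d : ℤ) * K ^ 2 = (d * M ^ 2 - 9 * e ^ 2) * (d * M ^ 2 - 25 * e ^ 2)) :
    IsCoprime (d : ℤ) e := by
  rw [Int.isCoprime_iff_gcd_eq_one]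
  by_contra hne
  obtain ⟨l, hl, hl2⟩ := Nat.exists_prime_and_dvd hne
  have hlZ : Prime (l : ℤ) := Nat.prime_iff_prime_int.mp hl
  have hld : (l : ℤ) ∣ d := (Int.natCast_dvd_natCast.mpr hl2).trans (Int.gcd_dvd_left _ _)
  have hle : (l : ℤ) ∣ e := (Int.natCast_dvd_natCast.mpr hl2).trans (Int.gcd_dvd_right _ _)
  have hdZ : Squarefree (d : ℤ) := Int.squarefree_natCast.mpr hd
  obtain ⟨d', hd'⟩ := hld
  obtain ⟨e', he'⟩ := hle
  have hld' : ¬ (l : ℤ) ∣ d' := by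
    rintro ⟨k, rfl⟩
    have := hdZ (l : ℤ) ⟨k, by rw [hd']; ring⟩
    exact hlZ.not_isUnit this
  have hl0 : (l : ℤ) ≠ 0 := hlZ.ne_zero
  have h1 : d' * K ^ 2 = l * ((d' * M ^ 2 - 9 * l * e' ^ 2) * (d' * M ^ 2 - 25 * l * e' ^ 2)) := by
    apply mul_left_cancel₀ hl0
    rw [hd', he'] at h
    linear_combination h
  have h2 : (l : ℤ) ∣ K := by
    have : (l : ℤ) ∣ d' * K ^ 2 := ⟨_, h1⟩
    rcases hlZ.dvd_or_dvd this with h3 | h3
    · exact absurd h3 hld'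
    · exact hlZ.dvd_of_dvd_pow h3
  obtain ⟨K', rfl⟩ := h2
  have h3 : d' * l * K' ^ 2 = (d' * M ^ 2 - 9 * l * e' ^ 2) * (d' * M ^ 2 - 25 * l * e' ^ 2) := by
    apply mul_left_cancel₀ hl0
    linear_combination h1
  have h4 : (l : ℤ) ∣ (d' * M ^ 2) ^ 2 :=
    ⟨d' * K' ^ 2 + 34 * d' * M ^ 2 * e' ^ 2 - 225 * l * e' ^ 4, by linear_combination -h3⟩
  have h5 := hlZ.dvd_of_dvd_pow h4
  rcases hlZ.dvd_or_dvd h5 with h6 | h6
  · exact hld' h6
  · have h7 := hlZ.dvd_of_dvd_pow h6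
    have h8 : (l : ℤ) ∣ 1 := by
      obtain ⟨u, v, huv⟩ := hcop
      rw [← huv]
      exact dvd_add (h7.mul_left _) (Dvd.dvd.mul_left ⟨e', he'⟩ _)
    exact hlZ.not_isUnit (isUnit_of_dvd_one h8)

theorem points {X Y : ℚ} (h : Y ^ 2 = X * (X - 9) * (X - 25)) :
    X = 0 ∨ X = 9 ∨ X = 25 ∨ X = 5 ∨ X = 45 := by
  by_cases hX0 : X = 0
  · left; exact hX0
  have hXpos : 0 < X := by
    by_contra hneg
    push Not at hneg
    have hX : X < 0 := lt_of_le_of_ne hneg hX0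
    nlinarith [sq_nonneg Y, mul_pos (neg_pos.mpr hX) (mul_pos (by linarith : 0 < 9 - X) (by linarith : 0 < 25 - X))]
  have hnumpos : 0 < X.num := Rat.num_pos.mpr hXpos
  obtain ⟨d, b, hdb, hd⟩ := Nat.sq_mul_squarefree (X.num.natAbs * X.den)
  have hden0 : (X.den : ℚ) ≠ 0 := by exact_mod_cast X.den_ne_zero
  have hXeq : X = d * ((b : ℚ) / X.den) ^ 2 := by
    have h1 : ((b : ℚ) ^ 2 * d) = X.num * X.den := by
      have : ((b ^ 2 * d : ℕ) : ℤ) = X.num * X.den := by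
        rw [hdb]; push_cast; rw [abs_of_pos hnumpos]
      exact_mod_cast this
    rw [div_pow, ← mul_div_assoc, mul_comm (d : ℚ), h1]
    conv_lhs => rw [← Rat.num_div_den X]
    field_simp
  set m : ℚ := (b : ℚ) / X.den with hm
  have hm0 : m ≠ 0 := by
    intro h0; rw [h0] at hXeq; apply hX0; rw [hXeq]; ring
  have hdenpos : (0 : ℚ) < (m.den : ℚ) := by exact_mod_cast m.den_pos
  have hnum : (m.num : ℚ) = m * m.den := by
    rw [eq_comm, Rat.mul_den_eq_num]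
  have hcop : IsCoprime m.num (m.den : ℤ) := by
    rw [Int.isCoprime_iff_gcd_eq_one]
    exact m.reduced
  obtain ⟨M, hM⟩ : ∃ M : ℤ, M = m.num := ⟨_, rfl⟩
  obtain ⟨e, he⟩ : ∃ e : ℤ, e = (m.den : ℤ) := ⟨_, rfl⟩
  have hecast : (m.den : ℚ) = (e : ℚ) := by rw [he]; norm_cast
  rw [hecast] at hdenpos hnum
  rw [← hM] at hnum
  rw [← hM, ← he] at hcop
  have hY : Y ^ 2 = d * m ^ 2 * (d * m ^ 2 - 9) * (d * m ^ 2 - 25) := by
    rw [h, hXeq]
  have hYm : (Y / m) ^ 2 = d * (d * m ^ 2 - 9) * (d * m ^ 2 - 25) := by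
    rw [div_pow, hY]; field_simp
  obtain ⟨K, -, hK⟩ := int_of_sq_eq (w := Y / m * (e : ℚ) ^ 2)
    (k := d * ((d * M ^ 2 - 9 * e ^ 2) * (d * M ^ 2 - 25 * e ^ 2))) (by
      push_cast
      rw [hnum, mul_pow, hYm]; ring)
  have hdZ : Squarefree (d : ℤ) := Int.squarefree_natCast.mpr hd
  have hdK : (d : ℤ) ∣ K := by
    have : (d : ℤ) ∣ K ^ 2 := ⟨_, hK⟩
    rwa [hdZ.dvd_pow_iff_dvd two_ne_zero] at this
  obtain ⟨K', rfl⟩ := hdK
  have hd0 : (d : ℤ) ≠ 0 := hdZ.ne_zero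
  have hK' : (d : ℤ) * K' ^ 2 = (d * M ^ 2 - 9 * e ^ 2) * (d * M ^ 2 - 25 * e ^ 2) := by
    apply mul_left_cancel₀ hd0
    linear_combination hK
  have hcde := coprime_of_eq hd hcop hK'
  have hd15 : (d : ℤ) ∣ 15 := by
    have h1 : (d : ℤ) ∣ 15 ^ 2 * e ^ 4 :=
      ⟨K' ^ 2 - (d * M ^ 4 - 34 * M ^ 2 * e ^ 2), by linear_combination -hK'⟩
    have h2 := (hcde.pow_right (n := 4)).dvd_of_dvd_mul_right h1
    rwa [hdZ.dvd_pow_iff_dvd two_ne_zero] at h2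
  have hd15' : d ∣ 15 := by exact_mod_cast hd15
  have hdle : d ≤ 15 := Nat.le_of_dvd (by norm_num) hd15'
  have hcases : d = 1 ∨ d = 3 ∨ d = 5 ∨ d = 15 := by
    have : d ∈ Nat.divisors 15 := Nat.mem_divisors.mpr ⟨hd15', by norm_num⟩
    have h15 : Nat.divisors 15 = {1, 3, 5, 15} := by decide
    rw [h15] at this
    simpa using this
  rcases hcases with rfl | rfl | rfl | rfl
  · have key := class_one (m := m) (w := Y / m) (by rw [hYm]; push_cast; ring)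
    rw [hXeq]
    push_cast
    rcases key with k | k | k <;> rw [k] <;> norm_num
  · exfalso
    refine no_three (N := K') hcop ?_
    push_cast at hK'
    linarith
  · have key := class_five (m := m) (n := Y / m / 5) (by
      rw [div_pow (Y / m), hYm]; push_cast; ring)
    rw [hXeq]
    push_cast
    rcases key with k | k <;> rw [k] <;> norm_num
  · exfalso
    refine no_fifteen (N := K') hcop ?_
    push_cast at hK'
    linarith

end Fermat.Agent.X015
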