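import Mathlib

/-!
The normalised `x`-coordinate `ξ = 12 x + b₂` of points of a Weierstrass curve, its duplication
formula in terms of `c₄`, `c₆`, and existence and counting of 3- and 5-torsion points over an
algebraically closed field of characteristic zero.
-/

set_option autoImplicit false

open WeierstrassCurve WeierstrassCurve.Affine WeierstrassCurve.Affine.Point

namespace Fermat.Agent.X015

section General

variable {F : Type*} [Field F] (V : WeierstrassCurve F)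

/-- the cubic `ξ³ - 3 c₄ ξ - 2 c₆` -/
def gx (ξ : F) : F := ξ ^ 3 - 3 * V.c₄ * ξ - 2 * V.c₆

/-- the duplication numerator -/
def Nx (ξ : F) : F := ξ ^ 4 + 6 * V.c₄ * ξ ^ 2 + 16 * V.c₆ * ξ + 9 * V.c₄ ^ 2

/-- the normalised `x`-coordinate (junk value `0` at infinity) -/
def xi : V.toAffine.Point → F
  | .zero => 0
  | .some x _ _ => 12 * x + V.b₂

@[simp] lemma xi_some {x y : F} (h : V.toAffine.Nonsingular x y) :
    xi V (.some x y h) = 12 * x + V.b₂ := rfl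

lemma exists_some {P : V.toAffine.Point} (hP : P ≠ 0) :
    ∃ x y h, P = .some x y h := by
  cases P with
  | zero => exact absurd rfl hP
  | some x y h => exact ⟨x, y, h, rfl⟩

lemma xi_neg (P : V.toAffine.Point) : xi V (-P) = xi V P := by
  cases P with
  | zero => rfl
  | some x y h => rfl

lemma eq_or_eq_neg_of_xi {P Q : V.toAffine.Point} (h12 : (12 : F) ≠ 0) (hP : P ≠ 0) (hQ : Q ≠ 0)
    (h : xi V P = xi V Q) : P = Q ∨ P = -Q := by
  obtain ⟨x, y, h1, rfl⟩ := exists_some V hP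
  obtain ⟨x', y', h2, rfl⟩ := exists_some V hQ
  rw [xi_some, xi_some] at h
  have hx : x = x' := by
    apply mul_left_cancel₀ h12
    linear_combination h
  exact X_eq_iff.mp hx

lemma gx_eq {x y : F} (h : V.toAffine.Equation x y) :
    gx V (12 * x + V.b₂) = 432 * (2 * y + V.a₁ * x + V.a₃) ^ 2 := by
  rw [equation_iff] at h
  rw [gx, c₄, c₆, b₂, b₄, b₆]
  linear_combination (-432 * 4) * h

variable [DecidableEq F]

lemma double_eq_zero_iff {P : V.toAffine.Point} (h432 : (432 : F) ≠ 0) (hP : P ≠ 0) :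
    P + P = 0 ↔ gx V (xi V P) = 0 := by
  obtain ⟨x, y, h, rfl⟩ := exists_some V hP
  rw [xi_some, gx_eq V h.1]
  constructor
  · intro h0
    have h1 : y = V.toAffine.negY x y := by
      by_contra hy
      rw [add_self_of_Y_ne hy] at h0
      exact some_ne_zero _ h0
    rw [Affine.negY] at h1
    have : 2 * y + V.a₁ * x + V.a₃ = 0 := by linear_combination h1
    rw [this]; ring
  · intro h0
    have h1 : 2 * y + V.a₁ * x + V.a₃ = 0 := by
      rcases mul_eq_zero.mp h0 with h2 | h2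
      · exact absurd h2 h432
      · exact pow_eq_zero_iff two_ne_zero |>.mp h2
    apply add_self_of_Y_eq
    rw [Affine.negY]
    linear_combination h1

lemma xi_double {P : V.toAffine.Point} (hP : P ≠ 0) (h2 : P + P ≠ 0) :
    4 * gx V (xi V P) * xi V (P + P) = Nx V (xi V P) := by
  obtain ⟨x, y, h, rfl⟩ := exists_some V hP
  have hy : y ≠ V.toAffine.negY x y := by
    intro hy
    exact h2 (add_self_of_Y_eq hy)
  rw [add_self_of_Y_ne hy, xi_some, xi_some, gx_eq V h.1, slope_of_Y_ne rfl hy]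
  have hu : y - V.toAffine.negY x y ≠ 0 := sub_ne_zero.mpr hy
  have hu' : y - V.toAffine.negY x y = 2 * y + V.a₁ * x + V.a₃ := by rw [Affine.negY]; ring
  rw [hu'] at hu ⊢
  have heq := (equation_iff _ _).mp h.1
  have key : (2 * y + V.a₁ * x + V.a₃) ^ 2 * V.toAffine.addX x x
      ((3 * x ^ 2 + 2 * V.toAffine.a₂ * x + V.toAffine.a₄ - V.toAffine.a₁ * y) /
        (2 * y + V.a₁ * x + V.a₃)) =
      (3 * x ^ 2 + 2 * V.a₂ * x + V.a₄ - V.a₁ * y) ^ 2 + V.a₁ *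
      (3 * x ^ 2 + 2 * V.a₂ * x + V.a₄ - V.a₁ * y) * (2 * y + V.a₁ * x + V.a₃)
        - (V.a₂ + 2 * x) * (2 * y + V.a₁ * x + V.a₃) ^ 2 := by
    rw [addX]
    field_simp
    ring
  have : 4 * (432 * (2 * y + V.a₁ * x + V.a₃) ^ 2) * (12 * V.toAffine.addX x x
      ((3 * x ^ 2 + 2 * V.toAffine.a₂ * x + V.toAffine.a₄ - V.toAffine.a₁ * y) /
        (2 * y + V.a₁ * x + V.a₃)) + V.b₂) = 1728 * (12 * ((2 * y + V.a₁ * x + V.a₃) ^ 2 *
        V.toAffine.addX x x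
      ((3 * x ^ 2 + 2 * V.toAffine.a₂ * x + V.toAffine.a₄ - V.toAffine.a₁ * y) /
        (2 * y + V.a₁ * x + V.a₃))) + (2 * y + V.a₁ * x + V.a₃) ^ 2 * V.b₂) := by ring
  rw [this, key, Nx, c₄, c₆, b₂, b₄, b₆]
  linear_combination (-13824 * (12 * x + (V.a₁ ^ 2 + 4 * V.a₂))) * heq

omit [DecidableEq F] in
lemma Nx_eq (ξ : F) : Nx V ξ = 9 * (ξ ^ 2 - V.c₄) ^ 2 - 8 * ξ * gx V ξ := by
  rw [Nx, gx]; ring

omit [DecidableEq F] in
lemma gx_ne_zero_of_Nx {ξ : F} (h2 : (2 : F) ≠ 0) (h3 : (3 : F) ≠ 0) (hΔ : V.Δ ≠ 0)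
    (hN : Nx V ξ = 0) : gx V ξ ≠ 0 := by
  intro hg
  rw [Nx_eq, hg] at hN
  have h1 : (ξ ^ 2 - V.c₄) ^ 2 = 0 := by
    have : (3 : F) ^ 2 * (ξ ^ 2 - V.c₄) ^ 2 = 0 := by linear_combination hN
    exact (mul_eq_zero.mp this).resolve_left (pow_ne_zero 2 h3)
  have h4 : ξ ^ 2 = V.c₄ := by
    have := pow_eq_zero_iff two_ne_zero |>.mp h1
    linear_combination this
  have h5 : V.c₄ * ξ + V.c₆ = 0 := by
    have : (2 : F) * (V.c₄ * ξ + V.c₆) = 0 := by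
      rw [gx] at hg
      linear_combination -hg + ξ * h4
    exact (mul_eq_zero.mp this).resolve_left h2
  have h6 : (2 : F) ^ 6 * 3 ^ 3 * V.Δ = 0 := by
    have := V.c_relation
    have h7 : V.c₆ ^ 2 = V.c₄ ^ 3 := by
      linear_combination (V.c₆ - V.c₄ * ξ) * h5 + V.c₄ ^ 2 * h4
    linear_combination this - h7
  rcases mul_eq_zero.mp h6 with h7 | h7
  · exact mul_ne_zero (pow_ne_zero 6 h2) (pow_ne_zero 3 h3) h7
  · exact hΔ h7

lemma double_of_eq {P : V.toAffine.Point} {ξ' : F} (h2 : (2 : F) ≠ 0) (h3 : (3 : F) ≠ 0)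
    (hΔ : V.Δ ≠ 0) (hP : P ≠ 0) (h : 4 * gx V (xi V P) * ξ' = Nx V (xi V P)) :
    P + P ≠ 0 ∧ xi V (P + P) = ξ' := by
  have h432 : (432 : F) ≠ 0 := by
    have : (432 : F) = 2 ^ 4 * 3 ^ 3 := by norm_num
    rw [this]; exact mul_ne_zero (pow_ne_zero _ h2) (pow_ne_zero _ h3)
  have hg : gx V (xi V P) ≠ 0 := by
    intro hg
    have : Nx V (xi V P) = 0 := by rw [← h, hg]; ring
    exact gx_ne_zero_of_Nx V h2 h3 hΔ this hg
  have h2P : P + P ≠ 0 := by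
    intro h0
    exact hg ((double_eq_zero_iff V h432 hP).mp h0)
  refine ⟨h2P, ?_⟩
  have h4 : (4 : F) * gx V (xi V P) ≠ 0 := by
    have : (4 : F) = 2 ^ 2 := by norm_num
    rw [this]; exact mul_ne_zero (pow_ne_zero _ h2) hg
  apply mul_left_cancel₀ h4
  rw [xi_double V hP h2P, h]

/-- the 3-division quartic in the normalised coordinate -/
def q3 (ξ : F) : F := ξ ^ 4 - 6 * V.c₄ * ξ ^ 2 - 8 * V.c₆ * ξ - 3 * V.c₄ ^ 2

omit [DecidableEq F] in
lemma q3_eq (ξ : F) : 3 * q3 V ξ = 4 * gx V ξ * ξ - Nx V ξ := by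
  rw [q3, gx, Nx]; ring

lemma three_smul_eq_zero_iff {P : V.toAffine.Point} (h2 : (2 : F) ≠ 0) (h3 : (3 : F) ≠ 0)
    (hΔ : V.Δ ≠ 0) (hP : P ≠ 0) : P + P + P = 0 ↔ q3 V (xi V P) = 0 := by
  have h12 : (12 : F) ≠ 0 := by
    have : (12 : F) = 2 ^ 2 * 3 := by norm_num
    rw [this]; exact mul_ne_zero (pow_ne_zero _ h2) h3
  constructor
  · intro h0
    have h1 : P + P = -P := eq_neg_of_add_eq_zero_left h0
    have h2P : P + P ≠ 0 := by rw [h1]; exact neg_ne_zero.mpr hP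
    have := xi_double V hP h2P
    rw [h1, xi_neg] at this
    have h4 : (3 : F) * q3 V (xi V P) = 0 := by rw [q3_eq, this]; ring
    exact (mul_eq_zero.mp h4).resolve_left h3
  · intro h0
    have h4 : 4 * gx V (xi V P) * xi V P = Nx V (xi V P) := by
      have := q3_eq V (xi V P)
      rw [h0] at this
      linear_combination -this
    obtain ⟨h5, h6⟩ := double_of_eq V h2 h3 hΔ hP h4
    rcases eq_or_eq_neg_of_xi V h12 h5 hP h6 with h7 | h7
    · exact absurd (left_eq_add.mp h7.symm) hP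
    · rw [h7]; exact neg_add_cancel P

omit [DecidableEq F] in
lemma exists_point [IsAlgClosed F] (h12 : (12 : F) ≠ 0) (hΔ : V.Δ ≠ 0) (ξ : F) :
    ∃ P : V.toAffine.Point, P ≠ 0 ∧ xi V P = ξ := by
  obtain ⟨x, hx⟩ : ∃ x : F, 12 * x + V.b₂ = ξ := ⟨(ξ - V.b₂) / 12, by field_simp; ring⟩
  obtain ⟨y, hy⟩ : ∃ y : F, y ^ 2 + V.a₁ * x * y + V.a₃ * y = x ^ 3 + V.a₂ * x ^ 2 + V.a₄ * x
      + V.a₆ := by
    have h2 : (2 : F) ≠ 0 := by
      intro h; apply h12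
      have : (12 : F) = 2 * 6 := by norm_num
      rw [this, h, zero_mul]
    obtain ⟨z, hz⟩ := IsAlgClosed.exists_pow_nat_eq ((V.a₁ * x + V.a₃) ^ 2
      + 4 * (x ^ 3 + V.a₂ * x ^ 2 + V.a₄ * x + V.a₆)) (n := 2) (by norm_num)
    refine ⟨(z - (V.a₁ * x + V.a₃)) / 2, ?_⟩
    field_simp
    linear_combination hz
  have heq : V.toAffine.Equation x y := (equation_iff _ _).mpr hy
  have hns := (equation_iff_nonsingular_of_Δ_ne_zero hΔ).mp heq
  exact ⟨.some x y hns, some_ne_zero _, by rw [xi_some, hx]⟩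

omit [DecidableEq F] in
lemma exists_root_poly [IsAlgClosed F] (f : Polynomial F) (hf : 0 < f.natDegree) :
    ∃ x, f.eval x = 0 := by
  obtain ⟨x, hx⟩ := IsAlgClosed.exists_root f (by
    intro h0
    rw [Polynomial.natDegree_eq_of_degree_eq_some h0] at hf
    exact lt_irrefl _ hf)
  exact ⟨x, hx⟩

open Polynomial in
/-- the 3-division quartic as a polynomial -/
noncomputable def q3P : F[X] :=
  X ^ 4 - C (6 * V.c₄) * X ^ 2 - C (8 * V.c₆) * X - C (3 * V.c₄ ^ 2)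

omit [DecidableEq F] in
lemma q3P_natDegree : (q3P V).natDegree = 4 := by
  rw [q3P]; compute_degree!

omit [DecidableEq F] in
lemma q3P_eval (ξ : F) : (q3P V).eval ξ = q3 V ξ := by
  rw [q3P, q3]; simp

lemma exists_three_torsion [IsAlgClosed F] (h2 : (2 : F) ≠ 0) (h3 : (3 : F) ≠ 0)
    (hΔ : V.Δ ≠ 0) : ∃ P : V.toAffine.Point, P ≠ 0 ∧ P + P + P = 0 := by
  have h12 : (12 : F) ≠ 0 := by
    have : (12 : F) = 2 ^ 2 * 3 := by norm_num
    rw [this]; exact mul_ne_zero (pow_ne_zero _ h2) h3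
  obtain ⟨ξ, hξ⟩ := exists_root_poly (q3P V) (by rw [q3P_natDegree]; norm_num)
  rw [q3P_eval] at hξ
  obtain ⟨P, hP, hPξ⟩ := exists_point V h12 hΔ ξ
  exact ⟨P, hP, (three_smul_eq_zero_iff V h2 h3 hΔ hP).mpr (by rw [hPξ]; exact hξ)⟩

/-- relations between the two normalised `x`-coordinates of a subgroup of order 5 -/
structure FiveRel (s q : F) : Prop where
  hB : -8 * V.c₆ = s ^ 3 - 6 * q * s + 6 * V.c₄ * s
  hA : 9 * V.c₄ ^ 2 - 6 * V.c₄ * (s ^ 2 - q) + (5 * q ^ 2 + 5 * s ^ 2 * q - s ^ 4) = 0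

omit [DecidableEq F] in
lemma fiveRel_of {ξ₁ ξ₂ : F} (h2 : (2 : F) ≠ 0) (hne : ξ₁ ≠ ξ₂)
    (e1 : 4 * gx V ξ₁ * ξ₂ = Nx V ξ₁) (e2 : 4 * gx V ξ₂ * ξ₁ = Nx V ξ₂) :
    FiveRel V (ξ₁ + ξ₂) (ξ₁ * ξ₂) := by
  have hne' : ξ₁ - ξ₂ ≠ 0 := sub_ne_zero.mpr hne
  rw [gx, Nx] at e1 e2
  have hB : -8 * V.c₆ = (ξ₁ + ξ₂) ^ 3 - 6 * (ξ₁ * ξ₂) * (ξ₁ + ξ₂) + 6 * V.c₄ * (ξ₁ + ξ₂) := by
    apply mul_left_cancel₀ hne'
    linear_combination e1 - e2
  refine ⟨hB, ?_⟩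
  apply mul_left_cancel₀ h2
  linear_combination -e1 - e2 + 3 * (ξ₁ + ξ₂) * hB

omit [DecidableEq F] in
lemma of_fiveRel {ξ₁ ξ₂ : F} (h2 : (2 : F) ≠ 0) (h : FiveRel V (ξ₁ + ξ₂) (ξ₁ * ξ₂)) :
    4 * gx V ξ₁ * ξ₂ = Nx V ξ₁ ∧ 4 * gx V ξ₂ * ξ₁ = Nx V ξ₂ := by
  obtain ⟨hB, hA⟩ := h
  constructor
  · apply mul_left_cancel₀ h2
    rw [gx, Nx]
    linear_combination (ξ₁ - ξ₂) * hB + 3 * (ξ₁ + ξ₂) * hB - 2 * hA
  · apply mul_left_cancel₀ h2
    rw [gx, Nx]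
    linear_combination -(ξ₁ - ξ₂) * hB + 3 * (ξ₁ + ξ₂) * hB - 2 * hA

omit [DecidableEq F] in
lemma ne_of_fiveRel {ξ₁ ξ₂ : F} (h2 : (2 : F) ≠ 0) (h3 : (3 : F) ≠ 0) (hΔ : V.Δ ≠ 0)
    (h : FiveRel V (ξ₁ + ξ₂) (ξ₁ * ξ₂)) : ξ₁ ≠ ξ₂ := by
  rintro rfl
  obtain ⟨hB, hA⟩ := h
  have hg : gx V ξ₁ = 0 := by
    have : (4 : F) * gx V ξ₁ = 0 := by rw [gx]; linear_combination hB
    have h4 : (4 : F) ≠ 0 := by
      have : (4 : F) = 2 ^ 2 := by norm_num
      rw [this]; exact pow_ne_zero _ h2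
    exact (mul_eq_zero.mp this).resolve_left h4
  have hN : Nx V ξ₁ = 0 := by
    rw [Nx_eq, hg]
    linear_combination hA
  exact gx_ne_zero_of_Nx V h2 h3 hΔ hN hg

open Polynomial in
omit [DecidableEq F] in
lemma exists_fiveRel [IsAlgClosed F] (h2 : (2 : F) ≠ 0) (h3 : (3 : F) ≠ 0) (h5 : (5 : F) ≠ 0) :
    ∃ s q : F, FiveRel V s q := by
  obtain ⟨s, hs⟩ := exists_root_poly (F := F)
    (X ^ 6 - C (60 * V.c₄) * X ^ 4 - C (320 * V.c₆) * X ^ 3 - C (720 * V.c₄ ^ 2) * X ^ 2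
      - C (768 * V.c₄ * V.c₆) * X - C (320 * V.c₆ ^ 2)) (by
      have : (X ^ 6 - C (60 * V.c₄) * X ^ 4 - C (320 * V.c₆) * X ^ 3 - C (720 * V.c₄ ^ 2) * X ^ 2
      - C (768 * V.c₄ * V.c₆) * X - C (320 * V.c₆ ^ 2)).natDegree = 6 := by compute_degree!
      rw [this]; norm_num)
  simp only [eval_sub, eval_pow, eval_X, eval_mul, eval_C] at hs
  by_cases hs0 : s = 0
  · subst hs0
    have h6 : V.c₆ = 0 := by
      have h320 : (320 : F) ≠ 0 := by
        have : (320 : F) = 2 ^ 6 * 5 := by norm_num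
        rw [this]; exact mul_ne_zero (pow_ne_zero _ h2) h5
      have h1 : (320 : F) * V.c₆ ^ 2 = 0 := by linear_combination -hs
      exact pow_eq_zero_iff two_ne_zero |>.mp ((mul_eq_zero.mp h1).resolve_left h320)
    obtain ⟨q, hq⟩ := exists_root_poly (F := F)
      (C 5 * X ^ 2 + C (6 * V.c₄) * X + C (9 * V.c₄ ^ 2)) (by
        have : (C 5 * X ^ 2 + C (6 * V.c₄) * X + C (9 * V.c₄ ^ 2)).natDegree = 2 := by
          compute_degree!
        rw [this]; norm_num)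
    simp only [eval_add, eval_pow, eval_X, eval_mul, eval_C] at hq
    exact ⟨0, q, by rw [h6]; ring, by linear_combination hq⟩
  · refine ⟨s, (s ^ 3 + 6 * V.c₄ * s + 8 * V.c₆) / (6 * s), ?_, ?_⟩
    · have h6 : (6 : F) ≠ 0 := by
        have : (6 : F) = 2 * 3 := by norm_num
        rw [this]; exact mul_ne_zero h2 h3
      field_simp
      ring
    · have h6 : (6 : F) ≠ 0 := by
        have : (6 : F) = 2 * 3 := by norm_num
        rw [this]; exact mul_ne_zero h2 h3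
      field_simp
      linear_combination -hs

lemma exists_five_torsion [IsAlgClosed F] (h2 : (2 : F) ≠ 0) (h3 : (3 : F) ≠ 0)
    (h5 : (5 : F) ≠ 0) (hΔ : V.Δ ≠ 0) : ∃ P : V.toAffine.Point, P ≠ 0 ∧
      (P + P) + (P + P) + P = 0 := by
  have h12 : (12 : F) ≠ 0 := by
    have : (12 : F) = 2 ^ 2 * 3 := by norm_num
    rw [this]; exact mul_ne_zero (pow_ne_zero _ h2) h3
  obtain ⟨s, q, hsq⟩ := exists_fiveRel V h2 h3 h5
  obtain ⟨ξ, hξ⟩ : ∃ ξ : F, ξ ^ 2 - s * ξ + q = 0 := by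
    obtain ⟨z, hz⟩ := IsAlgClosed.exists_pow_nat_eq (s ^ 2 - 4 * q) (n := 2) (by norm_num)
    refine ⟨(z + s) / 2, ?_⟩
    field_simp
    linear_combination hz
  have e1 : s = ξ + (s - ξ) := by ring
  have e2 : q = ξ * (s - ξ) := by linear_combination hξ
  obtain ⟨ξ', hξ'⟩ : ∃ ξ', ξ' = s - ξ := ⟨_, rfl⟩
  rw [← hξ'] at e1 e2
  rw [e1, e2] at hsq
  have hne := ne_of_fiveRel V h2 h3 hΔ hsq
  obtain ⟨r1, r2⟩ := of_fiveRel V h2 hsq
  obtain ⟨P, hP, hPξ⟩ := exists_point V h12 hΔ ξ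
  obtain ⟨h2P, h2Pξ⟩ := double_of_eq V h2 h3 hΔ hP (ξ' := ξ') (by rw [hPξ]; exact r1)
  obtain ⟨h4P, h4Pξ⟩ := double_of_eq V h2 h3 hΔ h2P (ξ' := ξ) (by rw [h2Pξ]; exact r2)
  refine ⟨P, hP, ?_⟩
  rcases eq_or_eq_neg_of_xi V h12 h4P hP (by rw [h4Pξ, hPξ]) with h | h
  · exfalso
    have h7 : P + P = -P := by
      have : P + (P + P + P) = P + 0 := by rw [add_zero]; nth_rewrite 5 [← h]; abel
      have h8 := add_left_cancel this
      exact eq_neg_of_add_eq_zero_left h8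
    apply hne
    rw [← hPξ, ← h2Pξ, h7, xi_neg]
  · rw [h]; exact neg_add_cancel P

lemma five_torsion_rel {P : V.toAffine.Point} (h2 : (2 : F) ≠ 0) (h3 : (3 : F) ≠ 0)
    (hP : P ≠ 0) (h5P : (P + P) + (P + P) + P = 0) :
    P + P ≠ 0 ∧ xi V P ≠ xi V (P + P) ∧ FiveRel V (xi V P + xi V (P + P)) (xi V P * xi V (P + P)) ∧
      4 * gx V (xi V P) * xi V (P + P) = Nx V (xi V P) ∧
      4 * gx V (xi V (P + P)) * xi V P = Nx V (xi V (P + P)) := by
  have h12 : (12 : F) ≠ 0 := by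
    have : (12 : F) = 2 ^ 2 * 3 := by norm_num
    rw [this]; exact mul_ne_zero (pow_ne_zero _ h2) h3
  have h2P : P + P ≠ 0 := by
    intro h0
    rw [h0] at h5P
    simp at h5P
    exact hP h5P
  have h4P : (P + P) + (P + P) = -P := eq_neg_of_add_eq_zero_left h5P
  have h4P0 : (P + P) + (P + P) ≠ 0 := by rw [h4P]; exact neg_ne_zero.mpr hP
  have hne : xi V P ≠ xi V (P + P) := by
    intro h
    rcases eq_or_eq_neg_of_xi V h12 hP h2P h with h1 | h1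
    · exact hP (left_eq_add.mp h1)
    · have h3P : P + P + P = 0 := by nth_rewrite 3 [h1]; abel
      apply hP
      have : P = (P + P + P) + (P + P + P) - ((P + P) + (P + P) + P) := by abel
      rw [this, h3P, h5P]; simp
  have e1 := xi_double V hP h2P
  have e2 := xi_double V h2P h4P0
  rw [h4P, xi_neg] at e2
  exact ⟨h2P, hne, fiveRel_of V h2 hne e1 e2, e1, e2⟩

end General

end Fermat.Agent.X015
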